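/-
GATE-P / S56-TWGATE (helper35): **`LocalCond` — the ONE contract of the local adapters**
(requested by helper98, board 4119 (6)).

Setting (= helper11's MODEL BINDERS, `GP/Tan/SelmerGlobal`): `ρbar`, a basis `b`,
`r̄ := toMatRes ρbar b`, a model `N : Rep (ZMod p) G_ℚ` of `ad⁰ρ̄` with an additive embedding
`emb : N →+ M₂(k)`.  In the pinned SEL-MODEL (helper59 `GP/GW/Model`) the local cohomology at a
prime `q` is `Hlc (levelQ q) (Rep.res (localGaloisToGlobal q) N) i` — it does NOT depend on the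
global level `S`.

`LocalCond ρbar b p N emb q P e` : there is an `𝔽_p`-subspace `L ⊆ H¹(G_q, N)` with
* `Module.Finite L` and `dim L ≤ h⁰(G_q, N) + e`  (`e = [k:𝔽_p]` at `q = p` and at the TW primes,
  `e = 0` at the other primes of `Σ`),
* (membership) for every continuous matrix lift `t` of `r̄` to `k[ε]` whose `GaloisRepAdic` is
  equivalent to some `ρ` with the LOCAL property `P ρ`, every level-constant local cocycle
  `z : G_q → N` with `emb (z τ) = tanCocycle t (localGaloisToGlobal q τ)` has its class in `L`.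

`P` is a property of `k[ε]`-representations that only mentions the prime `q`:
`q = p` : `ρ.DetIsCyclotomic p ∧ ρ.IsStrictOrdinaryAt p` (resp. `… ∧ ρ.IsFlatAt p`);
`q ∈ Smin ∖ {p}` : `ρ.IsUnipotentOnInertiaAt q`;  `q ∈ Σ ∖ Smin` : `ρ.IsUnramifiedAt q`.
(`L` may be defined by cases on "some lift with `P` exists": if none exists take `L = ⊥`.)
NEW file; imports only.
-/
import Mathlib
import Fermat.Agent.GC.PT.LocDataQ
import Fermat.Agent.GC.Prof.LowMap
import Fermat.Agent.GP.Tan.SelmerCard

set_option autoImplicit false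
set_option linter.unusedSectionVars false

namespace Fermat.Agent.GP.Core

open IsLocalRing Fermat.Agent.S53_helper35 Matrix Fermat.Agent.GP.Tan.Cocycle
  Fermat.Agent.GC.Prof Fermat.Agent.GC.Places Fermat.Agent.GC.Local.KR groupCohomology

section Contract

variable {𝒪 : Type} [CommRing 𝒪] [IsLocalRing 𝒪]
  (ρbar : ResidualGaloisRep (ResidueField 𝒪))
  (b : Module.Basis (Fin 2) (ResidueField 𝒪) ρbar.V)
  (p : ℕ) [Fact p.Prime]
  (N : Rep (ZMod p) S53_helper35.GQ)
  (emb : N →+ Matrix (Fin 2) (Fin 2) (ResidueField 𝒪))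

/-- the membership clause of `LocalCond` for a given subspace `L`. -/
def LocalMem (q : ℕ) [Fact q.Prime]
    [IsDiscrete (levelQ q) (Rep.res (localGaloisToGlobal q) N)]
    (P : GaloisRepAdic (DualNumber (ResidueField 𝒪)) → Prop)
    (L : Submodule (ZMod p) (Hlc (levelQ q) (Rep.res (localGaloisToGlobal q) N) 1)) : Prop :=
  ∀ (t : S53_helper35.GQ →* Matrix (Fin 2) (Fin 2) (DualNumber (ResidueField 𝒪)))
    (ht : MatCont t), rfst t = toMatRes ρbar b →
    (∃ ρ : GaloisRepAdic (DualNumber (ResidueField 𝒪)), P ρ ∧ ρ.IsEquiv (ofMat t ht)) →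
    ∀ z : lcCocycles₁ (levelQ q) (Rep.res (localGaloisToGlobal q) N),
      (∀ τ : Gq q, emb ((z : Gq q → N) τ) = tanCocycle t (localGaloisToGlobal q τ)) →
        Hlc1π (levelQ q) (Rep.res (localGaloisToGlobal q) N) z ∈ L

/-- **the contract of a local adapter at the prime `q`**: a subspace `L ⊆ H¹(G_q, N)` of
dimension `≤ h⁰(G_q, N) + e` containing the classes of the tangent cocycles of all lifts with
the local property `P`. -/
def LocalCond (q : ℕ) [Fact q.Prime]
    [IsDiscrete (levelQ q) (Rep.res (localGaloisToGlobal q) N)]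
    (P : GaloisRepAdic (DualNumber (ResidueField 𝒪)) → Prop) (e : ℕ) : Prop :=
  ∃ L : Submodule (ZMod p) (Hlc (levelQ q) (Rep.res (localGaloisToGlobal q) N) 1),
    Module.Finite (ZMod p) L ∧
    Module.finrank (ZMod p) L ≤
      Module.finrank (ZMod p) (Hlc (levelQ q) (Rep.res (localGaloisToGlobal q) N) 0) + e ∧
    LocalMem ρbar b p N emb q P L

/-- the trivial adapter when NO lift has the local property (take `L = ⊥`). -/
theorem localCond_of_forall_not (q : ℕ) [Fact q.Prime]
    [IsDiscrete (levelQ q) (Rep.res (localGaloisToGlobal q) N)]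
    (P : GaloisRepAdic (DualNumber (ResidueField 𝒪)) → Prop) (e : ℕ)
    (h : ∀ ρ : GaloisRepAdic (DualNumber (ResidueField 𝒪)), ¬ P ρ) :
    LocalCond ρbar b p N emb q P e := by
  refine ⟨⊥, inferInstance, ?_, ?_⟩
  · rw [finrank_bot]
    exact Nat.zero_le _
  · rintro t ht - ⟨ρ, hρ, -⟩
    exact absurd hρ (h ρ)

/-- weakening of the local property and of the bound. -/
theorem LocalCond.mono {q : ℕ} [Fact q.Prime]
    [IsDiscrete (levelQ q) (Rep.res (localGaloisToGlobal q) N)]
    {P P' : GaloisRepAdic (DualNumber (ResidueField 𝒪)) → Prop} {e e' : ℕ}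
    (h : LocalCond ρbar b p N emb q P e) (hP : ∀ ρ, P' ρ → P ρ) (he : e ≤ e') :
    LocalCond ρbar b p N emb q P' e' := by
  obtain ⟨L, hfin, hcard, hmem⟩ := h
  refine ⟨L, hfin, hcard.trans (Nat.add_le_add_left he _), ?_⟩
  rintro t ht hfst ⟨ρ, hρ, hρe⟩ z hz
  exact hmem t ht hfst ⟨ρ, hP ρ hρ, hρe⟩ z hz

/-- the adapter at a prime where EVERY class is allowed (`L = ⊤`, the Taylor–Wiles primes). -/
theorem localCond_top (q : ℕ) [Fact q.Prime]
    [IsDiscrete (levelQ q) (Rep.res (localGaloisToGlobal q) N)]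
    (P : GaloisRepAdic (DualNumber (ResidueField 𝒪)) → Prop) (e : ℕ)
    [Module.Finite (ZMod p) (Hlc (levelQ q) (Rep.res (localGaloisToGlobal q) N) 1)]
    (h : Module.finrank (ZMod p) (Hlc (levelQ q) (Rep.res (localGaloisToGlobal q) N) 1) ≤
      Module.finrank (ZMod p) (Hlc (levelQ q) (Rep.res (localGaloisToGlobal q) N) 0) + e) :
    LocalCond ρbar b p N emb q P e := by
  refine ⟨⊤, inferInstance, ?_, fun _ _ _ _ _ _ => Submodule.mem_top⟩
  rw [finrank_top]
  exact h

end Contract

end Fermat.Agent.GP.Core
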