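/-
GATE-P / S56-TWGATE (helper35), CORE layer A: **`SelmerBound` for ONE auxiliary set `Q` from the
node statements in the pinned SEL-MODEL.**

Inputs (all binders):
* MODEL (helper94 AD0REP / helper11 binders): `N`, `emb`, `hinj`, `hsurj`, `hact`;
* [P-GW]: `Δ : PTData S`, `PreEuler N Δ L`, `TateLe S N*` (helper59 `GP/GW/Model`), consumed through
  helper7's `ModelConj.selmer_le_conj_sum`;
* [P-TW] + TW-INFL: `dualSelmerGrp N Δ L = ⊥`;
* GLOB-H0: `h⁰(G_ℚ, N) = 0`;  ARCH: `[k:𝔽_p] ≤ dim N^{c = 1}`;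
* [P-LOC]/[P-FLAT]: the local conditions (`selmerBound_base_of_family`: an explicit family `L`;
  `selmerBound_base_of_localConds`: existential `LocalCond`s, the family is built here).
Output: `SelmerBound 𝒪 ρbar b (cond56-lambda at Smin ∪ Q) r` via helper11's
`SelmerCard.selmerBound_base_of_submodule` with `Sel := selmerGrp S N L`.
NEW file; imports only.
-/
import Mathlib
import Fermat.Agent.GP.Core.LocalCond
import Fermat.Agent.GP.GW.ModelConj

set_option autoImplicit false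
set_option linter.unusedSectionVars false

namespace Fermat.Agent.GP.Core

open IsLocalRing Fermat.Agent.S53_helper35 Matrix Fermat.Agent.GP.Tan.Cocycle
  Fermat.Agent.GP.Tan.TanTop Fermat.Agent.GP.Tan.SelmerFrozen Fermat.Agent.GP.Tan.SelmerCard
  Fermat.Agent.GC.Prof Fermat.Agent.GC.Prof.Cone Fermat.Agent.GC.Places
  Fermat.Agent.GC.Local.KR Fermat.Agent.GC.PT.LocDataQ Fermat.Agent.GC.C0
  Fermat.Agent.GP.GW groupCohomology ExtCitation Module CategoryTheory

local instance factPrimeCore (q : Nat.Primes) : Fact ((q : ℕ).Prime) := ⟨q.2⟩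

section CoreA

variable {𝒪 : Type} [CommRing 𝒪] [IsLocalRing 𝒪]
  (ρbar : ResidualGaloisRep (ResidueField 𝒪))
  (b : Module.Basis (Fin 2) (ResidueField 𝒪) ρbar.V)
  (p : ℕ) [Fact p.Prime]
  (base : Finset ℕ → ∀ ⦃A : Type⦄ [CommRing A] [IsLocalRing A] [Algebra 𝒪 A],
    GaloisRepAdic A → Prop)
  (hbase : BaseGlobal 𝒪 p base)
  (Smin Q : Finset ℕ) (S : Finset Nat.Primes)
  (hS : ∀ q : Nat.Primes, (q : ℕ) ∈ Smin ∪ Q → q ∈ S)
  [IsDiscrete (levelS S) (TChi p)]
  (N : Rep (ZMod p) S53_helper35.GQ) [FiniteDimensional (ZMod p) N]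
  [IsDiscrete (levelS S) N] [IsDiscrete (levelS S) (N.dualTwist (cycloChar p))]
  (emb : N →+ Matrix (Fin 2) (Fin 2) (ResidueField 𝒪))
  (hinj : Function.Injective emb)
  (hsurj : ∀ X : Matrix (Fin 2) (Fin 2) (ResidueField 𝒪), Matrix.trace X = 0 → ∃ x : N, emb x = X)
  (hact : ∀ (σ : S53_helper35.GQ) (x : N),
    emb (N.ρ σ x) = toMatRes ρbar b σ * emb x * toMatRes ρbar b σ⁻¹)

include hbase hS hinj hsurj hact in
/-- **CORE layer A, explicit family.** -/
theorem selmerBound_base_of_family (h2 : (2 : ResidueField 𝒪) ≠ 0) (hp2 : p ≠ 2) (r d : ℕ)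
    (hk : Nat.card (ResidueField 𝒪) = p ^ d)
    (Δ : PTData (p := p) S) (L : ∀ v, Submodule (ZMod p) (Hloc S N v 1))
    (hpre : PreEuler N Δ L) (htate : TateLe S (N.dualTwist (cycloChar p)))
    (hdual : dualSelmerGrp N Δ L = ⊥)
    (hH0 : finrank (ZMod p) (Hlc (levelS S) N 0) = 0)
    (hconj : d ≤ finrank (ZMod p) (LinearMap.ker (N.ρ complexConjugation - 1)))
    (e : (locDataQ S).ι → ℕ)
    (hcard : ∀ v, finrank (ZMod p) (L v) ≤ finrank (ZMod p) (Hloc S N v 0) + e v)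
    (he : ∑ v, e v ≤ d + r * d)
    (hmem : ∀ (v : (locDataQ S).ι)
      (t : S53_helper35.GQ →* Matrix (Fin 2) (Fin 2) (DualNumber (ResidueField 𝒪)))
      (ht : MatCont t), rfst t = toMatRes ρbar b →
        (∃ ρ : GaloisRepAdic (DualNumber (ResidueField 𝒪)),
          (base (Smin ∪ Q) ρ ∧ ∀ q ∈ Smin, q.Prime → q ≠ p → ρ.IsUnipotentOnInertiaAt q) ∧
            ρ.IsEquiv (ofMat t ht)) →
        ∀ z : lcCocycles₁ ((locDataQ S).𝒰v v) (Rep.res ((locDataQ S).r v) N),
          (∀ τ : (locDataQ S).Gv v,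
            emb ((z : (locDataQ S).Gv v → N) τ) = tanCocycle t ((locDataQ S).r v τ)) →
          Hlc1π ((locDataQ S).𝒰v v) (Rep.res ((locDataQ S).r v) N) z ∈ L v) :
    SelmerBound 𝒪 ρbar b (fun _A _ _ _ ρ =>
      base (Smin ∪ Q) ρ ∧ ∀ q ∈ Smin, q.Prime → q ≠ p → ρ.IsUnipotentOnInertiaAt q) r := by
  have hfinSel : FiniteDimensional (ZMod p) (selmerGrp S N L) :=
    (selmer_le_of_preEuler_tate N Δ L hpre htate).1
  have hsum := ModelConj.selmer_le_conj_sum N hp2 Δ L hpre htate hdual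
  have hdim : finrank (ZMod p) (selmerGrp S N L) ≤ r * d := by
    have h1 : ∑ v, finrank (ZMod p) (L v) ≤
        ∑ v, (finrank (ZMod p) (Hloc S N v 0) + e v) :=
      Finset.sum_le_sum fun v _ => hcard v
    rw [Finset.sum_add_distrib] at h1
    omega
  refine selmerBound_base_of_submodule ρbar b p base hbase Smin Q S hS N emb hinj hsurj hact h2
    r d hk (selmerGrp S N L) hdim ?_
  intro t ht hfst h𝒟 z hz
  rw [mem_selmerGrp]
  intro v
  rw [locRes_apply]
  have hpull := HlcPull_Hlc1π ((locDataQ S).cont v) (𝟙 (Rep.res ((locDataQ S).r v) N)) z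
  have hres : HlcRes ((locDataQ S).cont v) N 1 (Hlc1π (levelS S) N z) =
      Hlc1π ((locDataQ S).𝒰v v) (Rep.res ((locDataQ S).r v) N)
        ⟨fun g => (z : S53_helper35.GQ → N) ((locDataQ S).r v g),
          pull_mem_lcCocycles₁ ((locDataQ S).cont v) (𝟙 (Rep.res ((locDataQ S).r v) N)) z⟩ :=
    hpull
  rw [hres]
  exact hmem v t ht hfst h𝒟 _ fun τ => hz _

end CoreA

end Fermat.Agent.GP.Core
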