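/-
GATE-P / S56-TWGATE (helper35), CORE layer A': **the family of local conditions built from the
`LocalCond` contracts**, and `SelmerBound` for ONE auxiliary set `Q` from them.

`S ⊇ primes of (Smin ∪ Q)` is the global level (`Σ ∪ Q` in the assembly).  For `v ∈ S`:
`v = p` ↦ the `L` of `hlocp`;  `v ∈ Smin ∖ {p}` ↦ the `L` of `hlocSmin`;  `v ∈ Q` ↦ `⊤`;
otherwise ↦ the `L` of `hlocUnr` (in the proof the case `v ∈ Q` is tested FIRST, so no
disjointness of `Q` from `Smin ∪ {p}` is needed).  The excess is `d` at `p` and at `Q`, `0`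
elsewhere, so
`Σ_v e_v ≤ d + |Q|·d`.
NEW file; imports only.
-/
import Mathlib
import Fermat.Agent.GP.Core.CoreSel

set_option autoImplicit false
set_option linter.unusedSectionVars false

namespace Fermat.Agent.GP.Core

open IsLocalRing Fermat.Agent.S53_helper35 Matrix Fermat.Agent.GP.Tan.Cocycle
  Fermat.Agent.GP.Tan.TanTop Fermat.Agent.GP.Tan.SelmerFrozen Fermat.Agent.GP.Tan.SelmerCard
  Fermat.Agent.GC.Prof Fermat.Agent.GC.Prof.Cone Fermat.Agent.GC.Places
  Fermat.Agent.GC.Local.KR Fermat.Agent.GC.PT.LocDataQ Fermat.Agent.GC.C0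
  Fermat.Agent.GP.GW groupCohomology ExtCitation Module CategoryTheory

local instance factPrimeCoreLoc (q : Nat.Primes) : Fact ((q : ℕ).Prime) := ⟨q.2⟩

section CoreLoc

variable {𝒪 : Type} [CommRing 𝒪] [IsLocalRing 𝒪]
  (ρbar : ResidualGaloisRep (ResidueField 𝒪))
  (b : Module.Basis (Fin 2) (ResidueField 𝒪) ρbar.V)
  (p : ℕ) [Fact p.Prime]
  (base : Finset ℕ → ∀ ⦃A : Type⦄ [CommRing A] [IsLocalRing A] [Algebra 𝒪 A],
    GaloisRepAdic A → Prop)
  (hbase : BaseGlobal 𝒪 p base)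
  (Smin Q : Finset ℕ) (S : Finset Nat.Primes)
  (hS : ∀ q : Nat.Primes, (q : ℕ) ∈ Smin ∪ Q → q ∈ S)
  [IsDiscrete (levelS S) (TChi p)]
  (N : Rep (ZMod p) S53_helper35.GQ) [FiniteDimensional (ZMod p) N]
  [IsDiscrete (levelS S) N] [IsDiscrete (levelS S) (N.dualTwist (cycloChar p))]
  (emb : N →+ Matrix (Fin 2) (Fin 2) (ResidueField 𝒪))
  (hinj : Function.Injective emb)
  (hsurj : ∀ X : Matrix (Fin 2) (Fin 2) (ResidueField 𝒪), Matrix.trace X = 0 → ∃ x : N, emb x = X)
  (hact : ∀ (σ : S53_helper35.GQ) (x : N),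
    emb (N.ρ σ x) = toMatRes ρbar b σ * emb x * toMatRes ρbar b σ⁻¹)

/-- discreteness of the restriction of `N` to `G_v`, in `levelQ` / `localGaloisToGlobal` form. -/
local instance isDiscrete_res_core (v : ↥S) :
    IsDiscrete (levelQ ((v : Nat.Primes) : ℕ))
      (Rep.res (localGaloisToGlobal ((v : Nat.Primes) : ℕ)) N) :=
  isDiscrete_res_localGaloisToGlobal S ((v : Nat.Primes) : ℕ) N

include hbase hS hinj hsurj hact in
/-- **CORE layer A', from the `LocalCond` contracts.** -/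
theorem selmerBound_base_of_localConds (h2 : (2 : ResidueField 𝒪) ≠ 0) (hp2 : p ≠ 2) (r d : ℕ)
    (hk : Nat.card (ResidueField 𝒪) = p ^ d)
    (Pp : GaloisRepAdic (DualNumber (ResidueField 𝒪)) → Prop)
    (hbaseP : ∀ (T : Finset ℕ) (ρ : GaloisRepAdic (DualNumber (ResidueField 𝒪))),
      base T ρ → Pp ρ)
    (hQr : Q.card ≤ r)
    (Δ : PTData (p := p) S)
    (hpre : ∀ L : ∀ v, Submodule (ZMod p) (Hloc S N v 1), PreEuler N Δ L)
    (htate : TateLe S (N.dualTwist (cycloChar p)))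
    (hdual : ∀ L : ∀ v, Submodule (ZMod p) (Hloc S N v 1),
      (∀ v : ↥S, ((v : Nat.Primes) : ℕ) ∈ Q → L v = ⊤) → dualSelmerGrp N Δ L = ⊥)
    (hH0 : finrank (ZMod p) (Hlc (levelS S) N 0) = 0)
    (hconj : d ≤ finrank (ZMod p) (LinearMap.ker (N.ρ complexConjugation - 1)))
    (hlocp : ∀ v : ↥S, ((v : Nat.Primes) : ℕ) = p →
      LocalCond ρbar b p N emb ((v : Nat.Primes) : ℕ) Pp d)
    (hlocSmin : ∀ v : ↥S, ((v : Nat.Primes) : ℕ) ∈ Smin → ((v : Nat.Primes) : ℕ) ≠ p →
      LocalCond ρbar b p N emb ((v : Nat.Primes) : ℕ)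
        (fun ρ => ρ.IsUnipotentOnInertiaAt ((v : Nat.Primes) : ℕ)) 0)
    (hlocUnr : ∀ v : ↥S, ((v : Nat.Primes) : ℕ) ∉ Smin → ((v : Nat.Primes) : ℕ) ∉ Q →
      ((v : Nat.Primes) : ℕ) ≠ p →
      LocalCond ρbar b p N emb ((v : Nat.Primes) : ℕ)
        (fun ρ => ρ.IsUnramifiedAt ((v : Nat.Primes) : ℕ)) 0)
    (hlocQ : ∀ v : ↥S, ((v : Nat.Primes) : ℕ) ∈ Q →
      finrank (ZMod p) (Hlc (levelQ ((v : Nat.Primes) : ℕ))
          (Rep.res (localGaloisToGlobal ((v : Nat.Primes) : ℕ)) N) 1) ≤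
        finrank (ZMod p) (Hlc (levelQ ((v : Nat.Primes) : ℕ))
          (Rep.res (localGaloisToGlobal ((v : Nat.Primes) : ℕ)) N) 0) + d) :
    SelmerBound 𝒪 ρbar b (fun _A _ _ _ ρ =>
      base (Smin ∪ Q) ρ ∧ ∀ q ∈ Smin, q.Prime → q ≠ p → ρ.IsUnipotentOnInertiaAt q) r := by
  classical
  -- the family of local conditions (`Q` FIRST: no disjointness of `Q` from `Smin ∪ {p}` is needed)
  let L : ∀ v : ↥S, Submodule (ZMod p) (Hloc S N v 1) := fun v =>
    if hvq : ((v : Nat.Primes) : ℕ) ∈ Q then ⊤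
    else if hvp : ((v : Nat.Primes) : ℕ) = p then Classical.choose (hlocp v hvp)
    else if hvs : ((v : Nat.Primes) : ℕ) ∈ Smin then Classical.choose (hlocSmin v hvs hvp)
    else Classical.choose (hlocUnr v hvs hvq hvp)
  let e : ↥S → ℕ := fun v =>
    (if ((v : Nat.Primes) : ℕ) = p then d else 0) + (if ((v : Nat.Primes) : ℕ) ∈ Q then d else 0)
  have hLq : ∀ (v : ↥S) (_ : ((v : Nat.Primes) : ℕ) ∈ Q), L v = ⊤ :=
    fun v hvq => dif_pos hvq
  have hLp : ∀ (v : ↥S) (_ : ((v : Nat.Primes) : ℕ) ∉ Q) (hvp : ((v : Nat.Primes) : ℕ) = p),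
      L v = Classical.choose (hlocp v hvp) := fun v hvq hvp => by
    exact (dif_neg hvq).trans (dif_pos hvp)
  have hLs : ∀ (v : ↥S) (_ : ((v : Nat.Primes) : ℕ) ∉ Q) (hvp : ((v : Nat.Primes) : ℕ) ≠ p)
      (hvs : ((v : Nat.Primes) : ℕ) ∈ Smin), L v = Classical.choose (hlocSmin v hvs hvp) :=
    fun v hvq hvp hvs => by
      exact (dif_neg hvq).trans ((dif_neg hvp).trans (dif_pos hvs))
  have hLu : ∀ (v : ↥S) (hvq : ((v : Nat.Primes) : ℕ) ∉ Q) (hvp : ((v : Nat.Primes) : ℕ) ≠ p)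
      (hvs : ((v : Nat.Primes) : ℕ) ∉ Smin),
      L v = Classical.choose (hlocUnr v hvs hvq hvp) :=
    fun v hvq hvp hvs => by
      exact (dif_neg hvq).trans ((dif_neg hvp).trans (dif_neg hvs))
  -- the dimension bounds
  have hcard : ∀ v : ↥S, finrank (ZMod p) (L v) ≤ finrank (ZMod p) (Hloc S N v 0) + e v := by
    intro v
    by_cases hvq : ((v : Nat.Primes) : ℕ) ∈ Q
    · rw [hLq v hvq, finrank_top]
      have h1 := hlocQ v hvq
      have h2 : d ≤ e v := by
        show d ≤ (if ((v : Nat.Primes) : ℕ) = p then d else 0) +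
          (if ((v : Nat.Primes) : ℕ) ∈ Q then d else 0)
        rw [if_pos hvq]
        exact Nat.le_add_left _ _
      exact h1.trans (Nat.add_le_add_left h2 _)
    · by_cases hvp : ((v : Nat.Primes) : ℕ) = p
      · rw [hLp v hvq hvp]
        have h1 := (Classical.choose_spec (hlocp v hvp)).2.1
        have h2 : d ≤ e v := by
          show d ≤ (if ((v : Nat.Primes) : ℕ) = p then d else 0) +
            (if ((v : Nat.Primes) : ℕ) ∈ Q then d else 0)
          rw [if_pos hvp]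
          exact Nat.le_add_right _ _
        exact h1.trans (Nat.add_le_add_left h2 _)
      · by_cases hvs : ((v : Nat.Primes) : ℕ) ∈ Smin
        · rw [hLs v hvq hvp hvs]
          exact (Classical.choose_spec (hlocSmin v hvs hvp)).2.1.trans
            (Nat.add_le_add_left (Nat.zero_le _) _)
        · rw [hLu v hvq hvp hvs]
          exact (Classical.choose_spec (hlocUnr v hvs hvq hvp)).2.1.trans
            (Nat.add_le_add_left (Nat.zero_le _) _)
  -- the total excess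
  have he : ∑ v : ↥S, e v ≤ d + r * d := by
    have hinjS : Function.Injective fun v : ↥S => ((v : Nat.Primes) : ℕ) := fun v w hvw =>
      Subtype.ext (Subtype.ext hvw)
    show ∑ v : ↥S, ((if ((v : Nat.Primes) : ℕ) = p then d else 0) +
      (if ((v : Nat.Primes) : ℕ) ∈ Q then d else 0)) ≤ d + r * d
    rw [Finset.sum_add_distrib]
    refine Nat.add_le_add ?_ ?_
    · rw [Finset.sum_ite, Finset.sum_const_zero, add_zero, Finset.sum_const, smul_eq_mul]
      have h1 : (Finset.univ.filter fun v : ↥S => ((v : Nat.Primes) : ℕ) = p).card ≤ 1 := by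
        rw [Finset.card_le_one]
        intro v hv w hw
        rw [Finset.mem_filter] at hv hw
        exact hinjS (hv.2.trans hw.2.symm)
      calc _ ≤ 1 * d := Nat.mul_le_mul_right d h1
        _ = d := one_mul d
    · rw [Finset.sum_ite, Finset.sum_const_zero, add_zero, Finset.sum_const, smul_eq_mul]
      have h1 : (Finset.univ.filter fun v : ↥S => ((v : Nat.Primes) : ℕ) ∈ Q).card ≤ Q.card := by
        refine Finset.card_le_card_of_injOn (fun v : ↥S => ((v : Nat.Primes) : ℕ)) ?_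
          (hinjS.injOn)
        intro v hv
        exact (Finset.mem_filter.mp hv).2
      exact Nat.mul_le_mul_right d (h1.trans hQr)
  -- membership
  refine selmerBound_base_of_family ρbar b p base hbase Smin Q S hS N emb hinj hsurj hact h2 hp2
    r d hk Δ L (hpre L) htate (hdual L hLq) hH0 hconj e hcard he ?_
  intro (v : ↥S) t ht hfst h𝒟 z hz
  obtain ⟨ρ, ⟨hb, hunip⟩, hρe⟩ := h𝒟
  by_cases hvq : ((v : Nat.Primes) : ℕ) ∈ Q
  · rw [hLq v hvq]
    exact Submodule.mem_top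
  · by_cases hvp : ((v : Nat.Primes) : ℕ) = p
    · rw [hLp v hvq hvp]
      exact (Classical.choose_spec (hlocp v hvp)).2.2 t ht hfst
        ⟨ρ, hbaseP _ ρ hb, hρe⟩ z hz
    · by_cases hvs : ((v : Nat.Primes) : ℕ) ∈ Smin
      · rw [hLs v hvq hvp hvs]
        exact (Classical.choose_spec (hlocSmin v hvs hvp)).2.2 t ht hfst
          ⟨ρ, hunip _ hvs (v : Nat.Primes).2 hvp, hρe⟩ z hz
      · rw [hLu v hvq hvp hvs]
        refine (Classical.choose_spec (hlocUnr v hvs hvq hvp)).2.2 t ht hfst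
          ⟨ρ, (hbase _ ρ hb).2 _ (v : Nat.Primes).2 ?_, hρe⟩ z hz
        intro hmem
        rcases Finset.mem_union.mp hmem with h | h
        · exact hvs h
        · exact hvq h

end CoreLoc

end Fermat.Agent.GP.Core
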