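/-
GATE-P / S56-TWGATE (helper35), CORE layer C: **the `∃ r, ∀ n, ∃ qv` assembly** — from the node
statements (all binders, quantified over the global level `S' ⊇ Σ`) to the hypothesis `hS` / `hF`
of helper11's `TanTop.s56_of_selmerBounds`.

`Σ ⊇ primes of Smin` is fixed once (helper71's enlargement is free).  `r` is the number of
Taylor–Wiles primes ([P-TW] `TWFinal.tw_final_at` with `W := Hlc (levelS Σ) N* 1`,
`r := finrank (ZMod p) W`, helper31 4154).  For the set `Q = image qv` the level is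
`S' := Σ ∪ primesIn Q`.
NEW file; imports only.
-/
import Mathlib
import Fermat.Agent.GP.Core.CoreLoc

set_option autoImplicit false
set_option linter.unusedSectionVars false
set_option linter.style.haveILetI false

namespace Fermat.Agent.GP.Core

open IsLocalRing Fermat.Agent.S53_helper35 Matrix Fermat.Agent.GP.Tan.Cocycle
  Fermat.Agent.GP.Tan.TanTop Fermat.Agent.GP.Tan.SelmerFrozen Fermat.Agent.GP.Tan.SelmerCard
  Fermat.Agent.GC.Prof Fermat.Agent.GC.Prof.Cone Fermat.Agent.GC.Places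
  Fermat.Agent.GC.Local.KR Fermat.Agent.GC.PT.LocDataQ Fermat.Agent.GC.C0
  Fermat.Agent.GP.GW groupCohomology ExtCitation Module Polynomial CategoryTheory

local instance factPrimeCoreAsm (q : Nat.Primes) : Fact ((q : ℕ).Prime) := ⟨q.2⟩

section CoreAsm

variable {𝒪 : Type} [CommRing 𝒪] [IsLocalRing 𝒪]
  (ρbar : ResidualGaloisRep (ResidueField 𝒪))
  (b : Module.Basis (Fin 2) (ResidueField 𝒪) ρbar.V)
  (p : ℕ) [Fact p.Prime]
  (base : Finset ℕ → ∀ ⦃A : Type⦄ [CommRing A] [IsLocalRing A] [Algebra 𝒪 A],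
    GaloisRepAdic A → Prop)
  (hbase : BaseGlobal 𝒪 p base)
  (N : Rep (ZMod p) S53_helper35.GQ) [FiniteDimensional (ZMod p) N]
  (emb : N →+ Matrix (Fin 2) (Fin 2) (ResidueField 𝒪))
  (hinj : Function.Injective emb)
  (hsurj : ∀ X : Matrix (Fin 2) (Fin 2) (ResidueField 𝒪), Matrix.trace X = 0 → ∃ x : N, emb x = X)
  (hact : ∀ (σ : S53_helper35.GQ) (x : N),
    emb (N.ρ σ x) = toMatRes ρbar b σ * emb x * toMatRes ρbar b σ⁻¹)

/-- the global level attached to the auxiliary set `image qv`. -/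
def levelOfTW (Sig : Finset Nat.Primes) {r : ℕ} (qv : Fin r → ℕ) : Finset Nat.Primes :=
  Sig ∪ primesIn (Finset.univ.image qv)

theorem subset_levelOfTW (Sig : Finset Nat.Primes) {r : ℕ} (qv : Fin r → ℕ) :
    Sig ⊆ levelOfTW Sig qv := Finset.subset_union_left

include hbase hinj hsurj hact in
/-- **CORE layer C**: the hypothesis `hS` / `hF` of `TanTop.s56_of_selmerBounds` for a
frozen-shaped base condition, from the node statements. -/
theorem selmerBounds_base_of_nodes (hp2 : p ≠ 2) (h2 : (2 : ResidueField 𝒪) ≠ 0)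
    (S Smin : Finset ℕ) (hpSmin : p ∈ Smin) (hSmin : Smin ⊆ S)
    (Sig : Finset Nat.Primes) (hSig : ∀ q : Nat.Primes, (q : ℕ) ∈ Smin → q ∈ Sig)
    (d : ℕ) (hk : Nat.card (ResidueField 𝒪) = p ^ d)
    (Pp : GaloisRepAdic (DualNumber (ResidueField 𝒪)) → Prop)
    (hbaseP : ∀ (T : Finset ℕ) (ρ : GaloisRepAdic (DualNumber (ResidueField 𝒪))),
      base T ρ → Pp ρ)
    -- discreteness at every level `S' ⊇ Σ`
    (hdT : ∀ S' : Finset Nat.Primes, Sig ⊆ S' → IsDiscrete (levelS S') (TChi p))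
    (hdN : ∀ S' : Finset Nat.Primes, Sig ⊆ S' → IsDiscrete (levelS S') N)
    (hdNs : ∀ S' : Finset Nat.Primes, Sig ⊆ S' →
      IsDiscrete (levelS S') (N.dualTwist (cycloChar p)))
    (hdloc : ∀ q : Nat.Primes,
      IsDiscrete (levelQ (q : ℕ)) (Rep.res (localGaloisToGlobal (q : ℕ)) N))
    -- [P-GW]
    (hPT : ∀ (S' : Finset Nat.Primes) [IsDiscrete (levelS S') (TChi p)], Sig ⊆ S' →
      Nonempty (PTData (p := p) S'))
    (hpre : ∀ (S' : Finset Nat.Primes) [IsDiscrete (levelS S') (TChi p)]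
      [IsDiscrete (levelS S') N] [IsDiscrete (levelS S') (N.dualTwist (cycloChar p))],
      Sig ⊆ S' → ∀ (Δ : PTData (p := p) S') (L : ∀ v, Submodule (ZMod p) (Hloc S' N v 1)),
        PreEuler N Δ L)
    (htate : ∀ (S' : Finset Nat.Primes) [IsDiscrete (levelS S') (N.dualTwist (cycloChar p))],
      Sig ⊆ S' → TateLe S' (N.dualTwist (cycloChar p)))
    -- GLOB-H0 and ARCH
    (hH0 : ∀ (S' : Finset Nat.Primes) [IsDiscrete (levelS S') N], Sig ⊆ S' →
      finrank (ZMod p) (Hlc (levelS S') N 0) = 0)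
    (hconj : d ≤ finrank (ZMod p) (LinearMap.ker (N.ρ complexConjugation - 1)))
    -- [P-TW] + TW-KILL: the Taylor–Wiles sets
    (r : ℕ)
    (hTWK : ∀ n : ℕ, ∃ qv : Fin r → ℕ, Function.Injective qv ∧
      (∀ i, (qv i).Prime ∧ qv i ∉ S ∧ p ^ (n + 1) ∣ qv i - 1) ∧
      (∀ i, ∀ P : ValuationSubring (AlgebraicClosure ℚ), P.LiesOverPrime (qv i) →
        ∀ φ : AlgebraicClosure ℚ ≃ₐ[ℚ] AlgebraicClosure ℚ, P.IsFrobeniusAt φ (qv i) →
          ∃ α β : ResidueField 𝒪, α ≠ β ∧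
            LinearMap.charpoly (ρbar.ρ φ) = (X - C α) * (X - C β)) ∧
      (∀ i, ∀ q ∈ Sig, ((q : Nat.Primes) : ℕ) ≠ qv i) ∧
      ∀ [IsDiscrete (levelS (levelOfTW Sig qv)) (TChi p)]
        [IsDiscrete (levelS (levelOfTW Sig qv)) N]
        [IsDiscrete (levelS (levelOfTW Sig qv)) (N.dualTwist (cycloChar p))]
        (Δ : PTData (p := p) (levelOfTW Sig qv))
        (L : ∀ v, Submodule (ZMod p) (Hloc (levelOfTW Sig qv) N v 1)),
        (∀ v : ↥(levelOfTW Sig qv),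
          ((v : Nat.Primes) : ℕ) ∈ Finset.univ.image qv → L v = ⊤) →
        dualSelmerGrp N Δ L = ⊥)
    -- the local adapters
    (hlocp : ∀ q : Nat.Primes, (q : ℕ) = p →
      @LocalCond 𝒪 _ _ ρbar b p _ N emb (q : ℕ) _ (hdloc q) Pp d)
    (hlocSmin : ∀ q : Nat.Primes, (q : ℕ) ∈ Smin → (q : ℕ) ≠ p →
      @LocalCond 𝒪 _ _ ρbar b p _ N emb (q : ℕ) _ (hdloc q)
        (fun ρ => ρ.IsUnipotentOnInertiaAt (q : ℕ)) 0)
    (hlocUnr : ∀ q : Nat.Primes, q ∈ Sig → (q : ℕ) ∉ Smin → (q : ℕ) ≠ p →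
      @LocalCond 𝒪 _ _ ρbar b p _ N emb (q : ℕ) _ (hdloc q)
        (fun ρ => ρ.IsUnramifiedAt (q : ℕ)) 0)
    (hlocQ : ∀ q : Nat.Primes, q ∉ Sig → (q : ℕ) ∉ S →
      (∃ n : ℕ, p ^ (n + 1) ∣ (q : ℕ) - 1) →
      (∀ P : ValuationSubring (AlgebraicClosure ℚ), P.LiesOverPrime (q : ℕ) →
        ∀ φ : AlgebraicClosure ℚ ≃ₐ[ℚ] AlgebraicClosure ℚ, P.IsFrobeniusAt φ (q : ℕ) →
          ∃ α β : ResidueField 𝒪, α ≠ β ∧
            LinearMap.charpoly (ρbar.ρ φ) = (X - C α) * (X - C β)) →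
      finrank (ZMod p) (@Hlc _ _ _ _ (levelQ (q : ℕ))
          (Rep.res (localGaloisToGlobal (q : ℕ)) N) (hdloc q) 1) ≤
        finrank (ZMod p) (@Hlc _ _ _ _ (levelQ (q : ℕ))
          (Rep.res (localGaloisToGlobal (q : ℕ)) N) (hdloc q) 0) + d) :
    ∃ r : ℕ, ∀ n : ℕ, ∃ qv : Fin r → ℕ, Function.Injective qv ∧
      (∀ i, (qv i).Prime ∧ qv i ∉ S ∧ p ^ (n + 1) ∣ qv i - 1) ∧
      (∀ i, ∀ P : ValuationSubring (AlgebraicClosure ℚ), P.LiesOverPrime (qv i) →
        ∀ φ : AlgebraicClosure ℚ ≃ₐ[ℚ] AlgebraicClosure ℚ, P.IsFrobeniusAt φ (qv i) →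
          ∃ α β : ResidueField 𝒪, α ≠ β ∧
            LinearMap.charpoly (ρbar.ρ φ) = (X - C α) * (X - C β)) ∧
      SelmerBound 𝒪 ρbar b (fun _A _ _ _ ρ =>
        base (Smin ∪ Finset.univ.image qv) ρ ∧
          ∀ q ∈ Smin, q.Prime → q ≠ p → ρ.IsUnipotentOnInertiaAt q) r := by
  classical
  refine ⟨r, fun n => ?_⟩
  obtain ⟨qv, hqinj, hcl2, hcl3, hdisj, hdual⟩ := hTWK n
  refine ⟨qv, hqinj, hcl2, hcl3, ?_⟩
  have hsub : Sig ⊆ levelOfTW Sig qv := subset_levelOfTW Sig qv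
  haveI := hdT (levelOfTW Sig qv) hsub
  haveI := hdN (levelOfTW Sig qv) hsub
  haveI := hdNs (levelOfTW Sig qv) hsub
  obtain ⟨Δ⟩ := hPT (levelOfTW Sig qv) hsub
  have hS'mem : ∀ q : Nat.Primes, (q : ℕ) ∈ Smin ∪ Finset.univ.image qv →
      q ∈ levelOfTW Sig qv := by
    intro q hq
    rcases Finset.mem_union.1 hq with h | h
    · exact Finset.mem_union_left _ (hSig q h)
    · exact Finset.mem_union_right _ (mem_primesIn.2 h)
  have hQr : (Finset.univ.image qv).card ≤ r :=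
    Finset.card_image_le.trans (by simp)
  -- the primes of the level outside `Sig` are the Taylor–Wiles primes
  have hmemQ : ∀ v : ↥(levelOfTW Sig qv), (v : Nat.Primes) ∉ Sig →
      ((v : Nat.Primes) : ℕ) ∈ Finset.univ.image qv := by
    intro v hv
    rcases Finset.mem_union.1 v.2 with h | h
    · exact absurd h hv
    · exact mem_primesIn.1 h
  have hnotSig : ∀ v : ↥(levelOfTW Sig qv), ((v : Nat.Primes) : ℕ) ∈ Finset.univ.image qv →
      (v : Nat.Primes) ∉ Sig := by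
    intro v hv hmem
    obtain ⟨i, -, hi⟩ := Finset.mem_image.1 hv
    exact hdisj i _ hmem hi.symm
  refine selmerBound_base_of_localConds ρbar b p base hbase Smin (Finset.univ.image qv)
    (levelOfTW Sig qv) hS'mem N emb hinj hsurj hact h2 hp2 r d hk Pp hbaseP hQr Δ
    (fun L => hpre (levelOfTW Sig qv) hsub Δ L) (htate (levelOfTW Sig qv) hsub)
    (fun L hL => hdual Δ L hL) (hH0 (levelOfTW Sig qv) hsub) hconj ?_ ?_ ?_ ?_
  · intro v hv
    exact hlocp (v : Nat.Primes) hv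
  · intro v hv hvp
    exact hlocSmin (v : Nat.Primes) hv hvp
  · intro v hvs hvq hvp
    refine hlocUnr (v : Nat.Primes) ?_ hvs hvp
    by_contra hcon
    exact hvq (hmemQ v hcon)
  · intro v hv
    obtain ⟨i, -, hi⟩ := Finset.mem_image.1 hv
    have h2' := hcl2 i
    rw [hi] at h2'
    refine hlocQ (v : Nat.Primes) (hnotSig v hv) h2'.2.1 ⟨n, h2'.2.2⟩ ?_
    intro P hP φ hφ
    have := hcl3 i
    rw [hi] at this
    exact this P hP φ hφ

end CoreAsm

end Fermat.Agent.GP.Core
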