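/-
GATE-P / S56-CORE-WLOG (helper64): **WLOG `ρbar` is itself of type `cond56`.**

Both contracts with the number-theory side — helper39's `SelmerGate` (`GP/Top/S56OfGates`) and
helper11's `SelmerBound` (`GP/Tan/TanTop`) — only speak about the first-order lifts of type `𝒟`.
If there is NO such lift they hold trivially; if there is one, then (for the two frozen conditions
`cond56`) the residual representation `GaloisRepAdic.ofResidualGaloisRep ρbar` is itself of type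
`cond56` (`GP/Tan/CondIsEquiv.cond56_SO_residual / cond56_FL_residual`).  Hence the local nodes may
ASSUME that `ρbar` is strictly ordinary resp. flat at `p`, unipotent on inertia at `Smin ∖ {p}` and
unramified outside `Smin ∪ Q`.

* `selmerGate_of_forall_not`, `selmerGate_wlog`, `selmerGate_SO_wlog`, `selmerGate_FL_wlog`;
* `twGate_SO_wlog`, `twGate_FL_wlog` : the same inside helper39's `TWGate`;
* `isLift_ofMat`, `isLift_of_isEquiv_ofMat` : a matrix lift of `toMatRes ρbar b` is an `IsLift`;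
* `selmerBound_of_forall_not`, `selmerBound_wlog`, `selmerBound_SO_wlog`, `selmerBound_FL_wlog`.
-/
import Fermat.Agent.GP.Tan.CondIsEquiv
import Fermat.Agent.GP.Tan.TanTop

set_option autoImplicit false
set_option linter.unusedSectionVars false
set_option linter.unusedVariables false

namespace Fermat.Agent.GP.Core.Wlog

open IsLocalRing Polynomial Fermat.Agent.S53_helper35 Fermat.Agent.S53_helper84
  Fermat.Agent.GP.Top Fermat.Agent.GP.Tan Fermat.Agent.GP.Tan.Cocycle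
  Fermat.Agent.GP.Tan.TanTop Fermat.Agent.GP.Tan.UnivInj

/-! ### `SelmerGate` -/

section Gate

variable {𝒪 : Type} [CommRing 𝒪] [IsDomain 𝒪] [IsDiscreteValuationRing 𝒪]
  [IsAdicComplete (maximalIdeal 𝒪) 𝒪]
  {ρbar : ResidualGaloisRep (ResidueField 𝒪)}
  {𝒟 : ∀ ⦃A : Type⦄ [CommRing A] [IsLocalRing A] [Algebra 𝒪 A], GaloisRepAdic A → Prop}

/-- no first-order lift of type `𝒟` ⟹ `SelmerGate` holds for every `r` (with `W = 0`). -/
theorem selmerGate_of_forall_not {r : ℕ}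
    (h : ∀ ρ : GaloisRepAdic (DualNumber (ResidueField 𝒪)), IsLift 𝒪 ρbar ρ → ¬ 𝒟 ρ) :
    SelmerGate 𝒪 ρbar 𝒟 r := by
  refine ⟨PUnit, inferInstance, inferInstance, inferInstance, ?_, fun _ => 0, ?_, ?_⟩
  · rw [Module.finrank_zero_of_subsingleton]
    exact Nat.zero_le r
  · intro ρ₁ ρ₂ h1 _ d1 _ _
    exact absurd d1 (h ρ₁ h1)
  · intro ρ₁ h1 d1 _
    exact absurd d1 (h ρ₁ h1)

/-- **WLOG there is a first-order lift of type `𝒟`.** -/
theorem selmerGate_wlog {r : ℕ}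
    (h : (∃ ρ : GaloisRepAdic (DualNumber (ResidueField 𝒪)), IsLift 𝒪 ρbar ρ ∧ 𝒟 ρ) →
      SelmerGate 𝒪 ρbar 𝒟 r) :
    SelmerGate 𝒪 ρbar 𝒟 r := by
  by_cases hex : ∃ ρ : GaloisRepAdic (DualNumber (ResidueField 𝒪)), IsLift 𝒪 ρbar ρ ∧ 𝒟 ρ
  · exact h hex
  · exact selmerGate_of_forall_not fun ρ h1 h2 => hex ⟨ρ, h1, h2⟩

/-- **strictly ordinary case: WLOG `ρbar` is of type `cond56`.** -/
theorem selmerGate_SO_wlog (p : ℕ) (Smin Q : Finset ℕ) {r : ℕ}
    (h : cond56 𝒪 (GaloisRep.strictOrdinaryCondition 𝒪 p) p Smin Q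
        (GaloisRepAdic.ofResidualGaloisRep ρbar) →
      SelmerGate 𝒪 ρbar (cond56 𝒪 (GaloisRep.strictOrdinaryCondition 𝒪 p) p Smin Q) r) :
    SelmerGate 𝒪 ρbar (cond56 𝒪 (GaloisRep.strictOrdinaryCondition 𝒪 p) p Smin Q) r :=
  selmerGate_wlog fun ⟨_, h1, h2⟩ => h (cond56_SO_residual p Smin Q ρbar h1 h2)

/-- **flat case: WLOG `ρbar` is of type `cond56`.** -/
theorem selmerGate_FL_wlog (p : ℕ) (Smin Q : Finset ℕ) {r : ℕ}
    (h : cond56 𝒪 (GaloisRep.flatCondition 𝒪 p) p Smin Q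
        (GaloisRepAdic.ofResidualGaloisRep ρbar) →
      SelmerGate 𝒪 ρbar (cond56 𝒪 (GaloisRep.flatCondition 𝒪 p) p Smin Q) r) :
    SelmerGate 𝒪 ρbar (cond56 𝒪 (GaloisRep.flatCondition 𝒪 p) p Smin Q) r :=
  selmerGate_wlog fun ⟨_, h1, h2⟩ => h (cond56_FL_residual p Smin Q ρbar h1 h2)

/-- `TWGate` at the strictly ordinary condition, with the residual shape available in the last
clause. -/
theorem twGate_SO_wlog (p : ℕ) (S Smin : Finset ℕ)
    (h : ∃ r : ℕ, ∀ n : ℕ, ∃ qv : Fin r → ℕ, Function.Injective qv ∧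
      (∀ i, (qv i).Prime ∧ qv i ∉ S ∧ p ^ (n + 1) ∣ qv i - 1) ∧
      (∀ i, ∀ P : ValuationSubring (AlgebraicClosure ℚ), P.LiesOverPrime (qv i) →
        ∀ φ : AlgebraicClosure ℚ ≃ₐ[ℚ] AlgebraicClosure ℚ, P.IsFrobeniusAt φ (qv i) →
          ∃ α β : ResidueField 𝒪, α ≠ β ∧
            LinearMap.charpoly (ρbar.ρ φ) = (X - C α) * (X - C β)) ∧
      (cond56 𝒪 (GaloisRep.strictOrdinaryCondition 𝒪 p) p Smin (Finset.univ.image qv)
          (GaloisRepAdic.ofResidualGaloisRep ρbar) →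
        SelmerGate 𝒪 ρbar
          (cond56 𝒪 (GaloisRep.strictOrdinaryCondition 𝒪 p) p Smin (Finset.univ.image qv)) r)) :
    TWGate 𝒪 (GaloisRep.strictOrdinaryCondition 𝒪 p) p ρbar S Smin := by
  obtain ⟨r, hr⟩ := h
  refine ⟨r, fun n => ?_⟩
  obtain ⟨qv, h1, h2, h3, h4⟩ := hr n
  exact ⟨qv, h1, h2, h3, selmerGate_SO_wlog p Smin _ h4⟩

/-- `TWGate` at the flat condition, with the residual shape available in the last clause. -/
theorem twGate_FL_wlog (p : ℕ) (S Smin : Finset ℕ)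
    (h : ∃ r : ℕ, ∀ n : ℕ, ∃ qv : Fin r → ℕ, Function.Injective qv ∧
      (∀ i, (qv i).Prime ∧ qv i ∉ S ∧ p ^ (n + 1) ∣ qv i - 1) ∧
      (∀ i, ∀ P : ValuationSubring (AlgebraicClosure ℚ), P.LiesOverPrime (qv i) →
        ∀ φ : AlgebraicClosure ℚ ≃ₐ[ℚ] AlgebraicClosure ℚ, P.IsFrobeniusAt φ (qv i) →
          ∃ α β : ResidueField 𝒪, α ≠ β ∧
            LinearMap.charpoly (ρbar.ρ φ) = (X - C α) * (X - C β)) ∧
      (cond56 𝒪 (GaloisRep.flatCondition 𝒪 p) p Smin (Finset.univ.image qv)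
          (GaloisRepAdic.ofResidualGaloisRep ρbar) →
        SelmerGate 𝒪 ρbar
          (cond56 𝒪 (GaloisRep.flatCondition 𝒪 p) p Smin (Finset.univ.image qv)) r)) :
    TWGate 𝒪 (GaloisRep.flatCondition 𝒪 p) p ρbar S Smin := by
  obtain ⟨r, hr⟩ := h
  refine ⟨r, fun n => ?_⟩
  obtain ⟨qv, h1, h2, h3, h4⟩ := hr n
  exact ⟨qv, h1, h2, h3, selmerGate_FL_wlog p Smin _ h4⟩

end Gate

/-! ### matrix lifts are lifts -/

section Lift

variable {𝒪 : Type} [CommRing 𝒪] [IsDomain 𝒪] [IsDiscreteValuationRing 𝒪]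
  [IsAdicComplete (maximalIdeal 𝒪) 𝒪]
  {ρbar : ResidualGaloisRep (ResidueField 𝒪)}
  (b : Module.Basis (Fin 2) (ResidueField 𝒪) ρbar.V)

/-- a continuous matrix representation over `k[ε]` reducing to the matrices of `ρbar` is a lift of
`ρbar` in the sense of `DeformationRingData.universal`. -/
theorem isLift_ofMat (t : GQ →* Matrix (Fin 2) (Fin 2) (DualNumber (ResidueField 𝒪)))
    (ht : MatCont t) (hfst : rfst t = toMatRes ρbar b) : IsLift 𝒪 ρbar (ofMat t ht) := by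
  set ι : ResidueField 𝒪 →+* ResidueField (DualNumber (ResidueField 𝒪)) :=
    ResidueField.map (algebraMap 𝒪 (DualNumber (ResidueField 𝒪))) with hι
  have hmap : mapMat (IsLocalRing.residue (DualNumber (ResidueField 𝒪))) t =
      mapMat ι (toMatRes ρbar b) := by
    refine MonoidHom.ext fun σ => ?_
    ext i j
    simp only [mapMat_apply, Matrix.map_apply]
    rw [hι, residueFieldMap_eq, RingHom.comp_apply, ← hfst, rfst_apply, mfst_apply,
      ← sub_eq_zero, ← map_sub, residue_eq_zero_iff, mem_maximalIdeal_dualNumber_iff,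
      TrivSqZeroExt.fst_sub, sub_eq_zero]
    rfl
  obtain ⟨e1⟩ := residual_ofMat_isEquiv_of_eq t ht (toMatRes ρbar b) (resCont_toMatRes ρbar b) ι
    hmap
  obtain ⟨e2⟩ := baseChangeAlong_isEquiv_ofMatRes ι ρbar b
  exact ⟨e1.trans e2.symm⟩

/-- anything equivalent to such a matrix representation is a lift of `ρbar`. -/
theorem isLift_of_isEquiv_ofMat (ρ : GaloisRepAdic (DualNumber (ResidueField 𝒪)))
    (t : GQ →* Matrix (Fin 2) (Fin 2) (DualNumber (ResidueField 𝒪)))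
    (ht : MatCont t) (hfst : rfst t = toMatRes ρbar b) (he : ρ.IsEquiv (ofMat t ht)) :
    IsLift 𝒪 ρbar ρ := by
  obtain ⟨e⟩ := he
  obtain ⟨e1⟩ := isLift_ofMat b t ht hfst
  exact ⟨e.residual.trans e1⟩

end Lift

/-! ### `SelmerBound` -/

section Bound

variable {𝒪 : Type} [CommRing 𝒪] [IsDomain 𝒪] [IsDiscreteValuationRing 𝒪]
  [IsAdicComplete (maximalIdeal 𝒪) 𝒪] [Finite (ResidueField 𝒪)]
  {ρbar : ResidualGaloisRep (ResidueField 𝒪)}
  (b : Module.Basis (Fin 2) (ResidueField 𝒪) ρbar.V)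
  {𝒟 : ∀ ⦃A : Type⦄ [CommRing A] [IsLocalRing A] [Algebra 𝒪 A], GaloisRepAdic A → Prop}

/-- no first-order lift of type `𝒟` ⟹ `SelmerBound` holds for every `r` (only coboundaries are
admissible, and any two coboundaries differ by a coboundary). -/
theorem selmerBound_of_forall_not {r : ℕ}
    (h : ∀ ρ : GaloisRepAdic (DualNumber (ResidueField 𝒪)), IsLift 𝒪 ρbar ρ → ¬ 𝒟 ρ) :
    SelmerBound 𝒪 ρbar b 𝒟 r := by
  have hno : ∀ c : GQ → Matrix (Fin 2) (Fin 2) (ResidueField 𝒪),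
      ((∃ X, ∀ σ, c σ = X - toMatRes ρbar b σ * X * toMatRes ρbar b σ⁻¹) ∨
        ∃ (t : GQ →* Matrix (Fin 2) (Fin 2) (DualNumber (ResidueField 𝒪))) (ht : MatCont t),
          rfst t = toMatRes ρbar b ∧ (∃ ρ, 𝒟 ρ ∧ ρ.IsEquiv (ofMat t ht)) ∧
            ∀ σ, c σ = tanCocycle t σ) →
      ∃ X, ∀ σ, c σ = X - toMatRes ρbar b σ * X * toMatRes ρbar b σ⁻¹ := by
    rintro c (hc | ⟨t, ht, hfst, ⟨ρ, hρ, he⟩, -⟩)
    · exact hc
    · exact absurd hρ (h ρ (isLift_of_isEquiv_ofMat b ρ t ht hfst he))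
  refine ⟨PUnit, inferInstance, fun _ => PUnit.unit, ?_, fun c c' hc hc' _ => ?_⟩
  · rw [Nat.card_unique]
    exact Nat.one_le_pow _ _ Nat.card_pos
  · obtain ⟨X, hX⟩ := hno c hc
    obtain ⟨X', hX'⟩ := hno c' hc'
    refine ⟨X' - X, fun σ => ?_⟩
    rw [hX σ, hX' σ, Matrix.mul_sub, Matrix.sub_mul]
    abel

/-- **WLOG there is a first-order lift of type `𝒟`.** -/
theorem selmerBound_wlog {r : ℕ}
    (h : (∃ ρ : GaloisRepAdic (DualNumber (ResidueField 𝒪)), IsLift 𝒪 ρbar ρ ∧ 𝒟 ρ) →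
      SelmerBound 𝒪 ρbar b 𝒟 r) :
    SelmerBound 𝒪 ρbar b 𝒟 r := by
  by_cases hex : ∃ ρ : GaloisRepAdic (DualNumber (ResidueField 𝒪)), IsLift 𝒪 ρbar ρ ∧ 𝒟 ρ
  · exact h hex
  · exact selmerBound_of_forall_not b fun ρ h1 h2 => hex ⟨ρ, h1, h2⟩

/-- **strictly ordinary case: WLOG `ρbar` is of type `cond56`** (in the shape of the frozen
conjunct, as in `TanTop.s56Strict_surjective`). -/
theorem selmerBound_SO_wlog (p : ℕ) (Smin Q : Finset ℕ) {r : ℕ}
    (h : cond56 𝒪 (GaloisRep.strictOrdinaryCondition 𝒪 p) p Smin Q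
        (GaloisRepAdic.ofResidualGaloisRep ρbar) →
      SelmerBound 𝒪 ρbar b (fun _A _ _ _ ρ =>
        GaloisRep.strictOrdinaryCondition 𝒪 p (Smin ∪ Q) ρ ∧
          ∀ q ∈ Smin, q.Prime → q ≠ p → ρ.IsUnipotentOnInertiaAt q) r) :
    SelmerBound 𝒪 ρbar b (fun _A _ _ _ ρ =>
      GaloisRep.strictOrdinaryCondition 𝒪 p (Smin ∪ Q) ρ ∧
        ∀ q ∈ Smin, q.Prime → q ≠ p → ρ.IsUnipotentOnInertiaAt q) r :=
  selmerBound_wlog b fun ⟨_, h1, h2⟩ => h (cond56_SO_residual p Smin Q ρbar h1 h2)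

/-- **flat case: WLOG `ρbar` is of type `cond56`.** -/
theorem selmerBound_FL_wlog (p : ℕ) (Smin Q : Finset ℕ) {r : ℕ}
    (h : cond56 𝒪 (GaloisRep.flatCondition 𝒪 p) p Smin Q
        (GaloisRepAdic.ofResidualGaloisRep ρbar) →
      SelmerBound 𝒪 ρbar b (fun _A _ _ _ ρ =>
        GaloisRep.flatCondition 𝒪 p (Smin ∪ Q) ρ ∧
          ∀ q ∈ Smin, q.Prime → q ≠ p → ρ.IsUnipotentOnInertiaAt q) r) :
    SelmerBound 𝒪 ρbar b (fun _A _ _ _ ρ =>
      GaloisRep.flatCondition 𝒪 p (Smin ∪ Q) ρ ∧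
        ∀ q ∈ Smin, q.Prime → q ≠ p → ρ.IsUnipotentOnInertiaAt q) r :=
  selmerBound_wlog b fun ⟨_, h1, h2⟩ => h (cond56_FL_residual p Smin Q ρbar h1 h2)

end Bound

end Fermat.Agent.GP.Core.Wlog
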