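/-
GATE-P / S56 [CORE] (helper35, CORE owner; compiled twin of the node S56-CORE-INST):
**`CoreAsm.selmerBounds_base_of_nodes` at the concrete model `N := adBar p ρbar b`,
`emb := Ad0.emb p (toMatRes ρbar b) 1`, with EVERY administrative binder discharged**, the two cores
and the frozen conclusion of S56 from the two residual nodes.

* `localCond_of_eq`         : transport of `LocalCond` along `(q : ℕ) = p` (so the node at `p` may be
  stated at `p` itself, with the ambient `[Fact p.Prime]`);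
* `selmerBounds_base_adBar` : for a frozen-shaped `base` (`BaseGlobal`), from the frozen hypotheses of
  S56, `Σ ⊇ Smin`, `(R1) htate` and the local condition at `p`:
  `∃ r, ∀ n, ∃ qv, … ∧ SelmerBound … r`.  Discharged here: `hinj hsurj hact` (helper94 `Ad0.emb_*`),
  `h2`, `d := [k : 𝔽_p]`, `hk` (helper11), `hdT hdN hdNs hdloc`, `hPT` (helper59), `hpre` (helper19),
  `hH0`, `hconj` (helper94), `(R2) hTWK` (helper49 `CzKill.exists_hTWK`), `(R4) (R5)` (helper32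
  `SminLocalCondPlug`), `(R6)` (helper67 `TWQFinrank.hlocQ_adBar`);
* `coreSO`  : the strict-ordinary core, `(R3-SO)` = helper79 `localCond_strict`; residual binder:
  `htate` only;
* `coreFL`  : the flat core; residual binders: `htate` and the flat `LocalCond` at `p`, which may
  ASSUME that `ρbar` itself is flat at `p`: if it is not, no first-order lift is of flat type
  (helper64 `cond56_FL_residual`) and `Wlog.selmerBound_of_forall_not` closes the bound, the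
  Taylor–Wiles primes still coming from `exists_hTWK` — so `r` does not depend on the branch;
* `isFlatAt_residual_of_isLift`, **`localCond_flat_wlog`**, `hlocp_flat_wlog` : the same WLOG INSIDE
  the local node — the conditional `(hflat → LocalCond …)` implies the unconditional `LocalCond …`
  (`L = ⊥` in the degenerate branch); this is what feeds the unconditional flat `hlocp` binder of
  helper39 `CoreInst.coreFL` / helper55 `CoreGeneric.s56_of_R1_R3FL`;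
* **`s56_of_htate_flatloc`** : the frozen conclusion of S56 (`TanTop.s56_of_selmerBounds`) from
  `(R1)` in the `∃ Σ` form of helper71 `R1Wrap.exists_sigma_htate_adBar` and `(R3-FL)`.
NEW file; imports only.
-/
import Mathlib
import Fermat.Agent.GP.Core.CoreAsm
import Fermat.Agent.GP.Core.Wlog
import Fermat.Agent.GP.TW.CzKill
import Fermat.Agent.GP.GW.Euler.TateAd0
import Fermat.Agent.GP.Loc.StrictOrdLocalCondPlug
import Fermat.Agent.GP.Loc.SminLocalCondPlug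
import Fermat.Agent.GP.Loc.TWQFinrank
import Fermat.Agent.GP.Bridge.Ad0RepH0
import Fermat.Agent.GP.Bridge.Ad0RepArch
import Fermat.Agent.GP.Bridge.Ad0RepPlug
import Fermat.Agent.GP.Tan.SelmerAd0

set_option autoImplicit false
set_option linter.unusedSectionVars false
set_option linter.style.haveILetI false

namespace Fermat.Agent.GP.Core.CoreInstAdBar

open IsLocalRing Fermat.Agent.S53_helper35 Matrix Fermat.Agent.GP.Tan.Cocycle
  Fermat.Agent.GP.Tan.TanTop Fermat.Agent.GP.Tan.SelmerFrozen Fermat.Agent.GP.Tan.SelmerCard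
  Fermat.Agent.GC.Prof Fermat.Agent.GC.Prof.Cone Fermat.Agent.GC.Places
  Fermat.Agent.GC.Local.KR Fermat.Agent.GC.PT.LocDataQ Fermat.Agent.GC.C0
  Fermat.Agent.GP.GW groupCohomology ExtCitation Module Polynomial CategoryTheory
  Fermat.Agent.GP.Bridge.Ad0 Fermat.Agent.GP.Core

local instance factPrimeCoreInstAdBar (q : Nat.Primes) : Fact ((q : ℕ).Prime) := ⟨q.2⟩

section Cast

/-- transport of `LocalCond` along `(q : ℕ) = p`. -/
theorem localCond_of_eq {𝒪 : Type} [CommRing 𝒪] [IsLocalRing 𝒪]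
    (ρbar : ResidualGaloisRep (ResidueField 𝒪))
    (b : Module.Basis (Fin 2) (ResidueField 𝒪) ρbar.V)
    (p : ℕ) [Fact p.Prime] (N : Rep (ZMod p) S53_helper35.GQ)
    (emb : N →+ Matrix (Fin 2) (Fin 2) (ResidueField 𝒪))
    (P : GaloisRepAdic (DualNumber (ResidueField 𝒪)) → Prop) (e : ℕ)
    (q : Nat.Primes) (hq : (q : ℕ) = p)
    (hd : IsDiscrete (levelQ (q : ℕ)) (Rep.res (localGaloisToGlobal (q : ℕ)) N))
    (h : ∀ [IsDiscrete (levelQ p) (Rep.res (localGaloisToGlobal p) N)],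
      LocalCond ρbar b p N emb p P e) :
    @LocalCond 𝒪 _ _ ρbar b p _ N emb (q : ℕ) _ hd P e := by
  subst hq
  exact @h hd

end Cast

section Inst

variable {𝒪 : Type} [CommRing 𝒪] [IsLocalRing 𝒪] [Finite (ResidueField 𝒪)]
  (p : ℕ) [Fact p.Prime] [Algebra (ZMod p) (ResidueField 𝒪)]
  (ρbar : ResidualGaloisRep (ResidueField 𝒪))
  (b : Module.Basis (Fin 2) (ResidueField 𝒪) ρbar.V)
  (base : Finset ℕ → ∀ ⦃A : Type⦄ [CommRing A] [IsLocalRing A] [Algebra 𝒪 A],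
    GaloisRepAdic A → Prop)
  (hbase : BaseGlobal 𝒪 p base)

include hbase in
theorem selmerBounds_base_adBar (hp2 : p ≠ 2)
    (habs : ρbar.IsAbsolutelyIrreducible)
    (hdet : (GaloisRepAdic.ofResidualGaloisRep ρbar).DetIsCyclotomic p)
    (hsplit : ∀ σ : AlgebraicClosure ℚ ≃ₐ[ℚ] AlgebraicClosure ℚ,
      ∃ α β : ResidueField 𝒪, LinearMap.charpoly (ρbar.ρ σ) = (X - C α) * (X - C β))
    (hTW : ∀ (K : Type) [Field K] [Algebra (ResidueField 𝒪) K]
      (G : Subgroup (AlgebraicClosure ℚ ≃ₐ[ℚ] AlgebraicClosure ℚ)), G.index = 2 →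
      ∀ V : Submodule K (ρbar.baseChange K).V,
        (∀ σ ∈ G, ∀ x ∈ V, (ρbar.baseChange K).ρ σ x ∈ V) → V = ⊥ ∨ V = ⊤)
    (S Smin : Finset ℕ) (hpSmin : p ∈ Smin) (hSmin : Smin ⊆ S)
    (hmin : ∀ q : ℕ, q.Prime → q ≠ p → (q ∈ Smin ↔ ¬ ρbar.IsUnramifiedAt q))
    (Sig : Finset Nat.Primes) (hSig : ∀ q : Nat.Primes, (q : ℕ) ∈ Smin → q ∈ Sig)
    (Pp : GaloisRepAdic (DualNumber (ResidueField 𝒪)) → Prop)
    (hbaseP : ∀ (T : Finset ℕ) (ρ : GaloisRepAdic (DualNumber (ResidueField 𝒪))),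
      base T ρ → Pp ρ)
    (htate : ∀ (S' : Finset Nat.Primes)
      [IsDiscrete (levelS S') ((adBar p ρbar b).dualTwist (cycloChar p))],
      Sig ⊆ S' → TateLe S' ((adBar p ρbar b).dualTwist (cycloChar p)))
    (hlocp : ∀ [IsDiscrete (levelQ p) (Rep.res (localGaloisToGlobal p) (adBar p ρbar b))],
      LocalCond ρbar b p (adBar p ρbar b) (emb p (toMatRes ρbar b) 1) p Pp
        (finrank (ZMod p) (ResidueField 𝒪))) :
    ∃ r : ℕ, ∀ n : ℕ, ∃ qv : Fin r → ℕ, Function.Injective qv ∧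
      (∀ i, (qv i).Prime ∧ qv i ∉ S ∧ p ^ (n + 1) ∣ qv i - 1) ∧
      (∀ i, ∀ P : ValuationSubring (AlgebraicClosure ℚ), P.LiesOverPrime (qv i) →
        ∀ φ : AlgebraicClosure ℚ ≃ₐ[ℚ] AlgebraicClosure ℚ, P.IsFrobeniusAt φ (qv i) →
          ∃ α β : ResidueField 𝒪, α ≠ β ∧
            LinearMap.charpoly (ρbar.ρ φ) = (X - C α) * (X - C β)) ∧
      SelmerBound 𝒪 ρbar b (fun _A _ _ _ ρ =>
        base (Smin ∪ Finset.univ.image qv) ρ ∧
          ∀ q ∈ Smin, q.Prime → q ≠ p → ρ.IsUnipotentOnInertiaAt q) r := by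
  classical
  have h2 : (2 : ResidueField 𝒪) ≠ 0 := two_ne_zero_of_odd p hp2
  have hpSig : pPrime p ∈ Sig := hSig (pPrime p) hpSmin
  have hur : ∀ q : Nat.Primes, q ∉ Sig → ρbar.IsUnramifiedAt (q : ℕ) :=
    Fermat.Agent.GP.Tan.SelmerAd0.unramified_outside_of_hmin p ρbar Smin hpSmin hmin Sig hSig
  have hurS' : ∀ S' : Finset Nat.Primes, Sig ⊆ S' →
      ∀ q : Nat.Primes, q ∉ S' → ρbar.IsUnramifiedAt (q : ℕ) :=
    fun S' hS' q hq => hur q fun h => hq (hS' h)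
  have hdN : ∀ S' : Finset Nat.Primes, Sig ⊆ S' → IsDiscrete (levelS S') (adBar p ρbar b) :=
    fun S' hS' => isDiscrete_adBar p ρbar b S' (hurS' S' hS')
  have hdT : ∀ S' : Finset Nat.Primes, Sig ⊆ S' → IsDiscrete (levelS S') (TChi p) :=
    fun S' hS' => isDiscrete_TChi S' (hS' hpSig)
  have hdNs : ∀ S' : Finset Nat.Primes, Sig ⊆ S' →
      IsDiscrete (levelS S') ((adBar p ρbar b).dualTwist (cycloChar p)) := fun S' hS' =>
    haveI := hdN S' hS'
    NineTermQ.isDiscrete_dual (hS' hpSig) (adBar p ρbar b)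
  have hdloc : ∀ q : Nat.Primes,
      IsDiscrete (levelQ (q : ℕ)) (Rep.res (localGaloisToGlobal (q : ℕ)) (adBar p ρbar b)) :=
    fun q =>
      haveI := hdN Sig (Finset.Subset.refl _)
      isDiscrete_res_localGaloisToGlobal Sig (q : ℕ) (adBar p ρbar b)
  have hk : Nat.card (ResidueField 𝒪) = p ^ finrank (ZMod p) (ResidueField 𝒪) :=
    natCard_eq_pow_finrank_zmod p (ResidueField 𝒪)
  haveI : CharP (ResidueField 𝒪) p := by
    have := (algebraMap (ZMod p) (ResidueField 𝒪)).injective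
    exact (RingHom.charP_iff (algebraMap (ZMod p) (ResidueField 𝒪)) this p).1 inferInstance
  obtain ⟨r, hTWK⟩ := Fermat.Agent.GP.TW.CzKill.exists_hTWK (p := p) (ρbar := ρbar) (b := b)
    hp2 habs hdet hsplit hTW S Sig hpSig hur
  exact selmerBounds_base_of_nodes ρbar b p base hbase (adBar p ρbar b)
    (emb p (toMatRes ρbar b) 1) (emb_injective p _ 1) (emb_surjective p _ 1) (emb_ρ_one p _)
    hp2 h2 S Smin hpSmin hSmin Sig hSig (finrank (ZMod p) (ResidueField 𝒪)) hk Pp hbaseP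
    hdT hdN hdNs hdloc
    (fun S' _ hS' => nonempty_ptData hp2 S' (hS' hpSig))
    (fun S' _ _ _ hS' Δ L => NineTermFinal.preEuler_holds Δ (hS' hpSig) (adBar p ρbar b) L)
    htate
    (fun S' _ _ => finrank_Hlc_zero_adBar p ρbar b S' habs h2)
    (finrank_ker_conj_adBar p ρbar b hp2 hdet).ge
    r hTWK
    (fun q hq => localCond_of_eq ρbar b p (adBar p ρbar b) (emb p (toMatRes ρbar b) 1) Pp _ q hq
      (hdloc q) hlocp)
    (Fermat.Agent.GP.Loc.SminHlc.hlocSmin_of_hmin ρbar b p (adBar p ρbar b)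
      (emb p (toMatRes ρbar b) 1) (emb_injective p _ 1) (emb_surjective p _ 1) (emb_ρ_one p _)
      hdloc hp2 Smin hmin)
    (fun q _ _ _ => Fermat.Agent.GP.Loc.SminHlc.hlocUnr_all ρbar b p (adBar p ρbar b)
      (emb p (toMatRes ρbar b) 1) (emb_injective p _ 1) hdloc q)
    (Fermat.Agent.GP.Loc.TWQFinrank.hlocQ_adBar p ρbar b S (hSmin hpSmin) Sig hur hdloc hk)

end Inst

section FlatWlog

open Fermat.Agent.S53_helper84 Fermat.Agent.GP.Tan Fermat.Agent.GP.Tan.UnivInj Fermat.Agent.GP.Top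
  Fermat.Agent.GP.Loc.UnipGlue

variable {𝒪 : Type} [CommRing 𝒪] [IsDomain 𝒪] [IsDiscreteValuationRing 𝒪]
  [IsAdicComplete (maximalIdeal 𝒪) 𝒪]
  (ρbar : ResidualGaloisRep (ResidueField 𝒪))
  (b : Module.Basis (Fin 2) (ResidueField 𝒪) ρbar.V)
  (p : ℕ) [Fact p.Prime]
  (N : Rep (ZMod p) S53_helper35.GQ)
  (emb : N →+ Matrix (Fin 2) (Fin 2) (ResidueField 𝒪))

/-- a first-order lift which is flat at `p` forces `ρbar` itself to be flat at `p`
(helper64's `residual_transfer` at the single property `IsFlatAt p`). -/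
theorem isFlatAt_residual_of_isLift
    {ρ₁ : GaloisRepAdic (DualNumber (ResidueField 𝒪))} (hlift : IsLift 𝒪 ρbar ρ₁)
    (h : ρ₁.IsFlatAt p) : (GaloisRepAdic.ofResidualGaloisRep ρbar).IsFlatAt p :=
  residual_transfer (fun _B _ _ ρ => ρ.IsFlatAt p)
    (fun _ _ _ _ _ _ φ hφ hsurj _ hρ => isFlatAt_baseChangeAlong_of_surjective φ hφ hsurj hρ)
    (fun _ _ _ _ _ he hρ => isFlatAt_of_isEquiv he hρ) ρbar hlift h

/-- **WLOG inside the local node (R3-FL)**: the flat `LocalCond` (at any prime `q`, in particular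
`q = p`) may ASSUME that `ρbar` itself is flat at `p` — otherwise no lift of `r̄` is flat at `p` and
`L = ⊥` works.  This converts the conditional theorems of [P-FLAT]
(`FlatLocalCond.localCond_flat_of_branches`, `FlatHlocp.hlocp_flat_of_ends`, binder `hflat`) into
the UNCONDITIONAL `hlocp` binder of `CoreAsm.selmerBounds_base_of_nodes` / `CoreInst.coreFL` /
`CoreGeneric.s56_of_R1_R3FL`. -/
theorem localCond_flat_wlog (q : ℕ) [Fact q.Prime]
    [IsDiscrete (levelQ q) (Rep.res (localGaloisToGlobal q) N)] (e : ℕ)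
    (h : (GaloisRepAdic.ofResidualGaloisRep ρbar).IsFlatAt p →
      LocalCond ρbar b p N emb q (fun ρ => ρ.DetIsCyclotomic p ∧ ρ.IsFlatAt p) e) :
    LocalCond ρbar b p N emb q (fun ρ => ρ.DetIsCyclotomic p ∧ ρ.IsFlatAt p) e := by
  by_cases hflat : (GaloisRepAdic.ofResidualGaloisRep ρbar).IsFlatAt p
  · exact h hflat
  · refine ⟨⊥, inferInstance, ?_, ?_⟩
    · rw [finrank_bot]
      exact Nat.zero_le _
    · rintro t ht hfst ⟨ρ, hρ, he⟩
      exact absurd (isFlatAt_residual_of_isLift ρbar p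
        (Wlog.isLift_of_isEquiv_ofMat b ρ t ht hfst he) hρ.2) hflat

/-- the same in the exact `hlocp` binder shape (family `hdloc`, `q : Nat.Primes`, `(q : ℕ) = p`). -/
theorem hlocp_flat_wlog
    (hdloc : ∀ q : Nat.Primes,
      IsDiscrete (levelQ (q : ℕ)) (Rep.res (localGaloisToGlobal (q : ℕ)) N)) (e : ℕ)
    (h : (GaloisRepAdic.ofResidualGaloisRep ρbar).IsFlatAt p →
      ∀ q : Nat.Primes, (q : ℕ) = p →
        @LocalCond 𝒪 _ _ ρbar b p _ N emb (q : ℕ) _ (hdloc q)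
          (fun ρ => ρ.DetIsCyclotomic p ∧ ρ.IsFlatAt p) e) :
    ∀ q : Nat.Primes, (q : ℕ) = p →
      @LocalCond 𝒪 _ _ ρbar b p _ N emb (q : ℕ) _ (hdloc q)
        (fun ρ => ρ.DetIsCyclotomic p ∧ ρ.IsFlatAt p) e := fun q hq =>
  haveI := hdloc q
  localCond_flat_wlog ρbar b p N emb (q : ℕ) e fun hflat => h hflat q hq

end FlatWlog

section Cores

variable {𝒪 : Type} [CommRing 𝒪] [IsDomain 𝒪] [IsDiscreteValuationRing 𝒪]
  [IsAdicComplete (maximalIdeal 𝒪) 𝒪] [Finite (ResidueField 𝒪)]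
  (p : ℕ) [Fact p.Prime] [Algebra (ZMod p) (ResidueField 𝒪)]
  (ρbar : ResidualGaloisRep (ResidueField 𝒪))
  (b : Module.Basis (Fin 2) (ResidueField 𝒪) ρbar.V)

/-- the strict-ordinary core: the only open binder is `htate`. -/
theorem coreSO (hp2 : p ≠ 2) (hp𝒪 : (p : 𝒪) ∈ maximalIdeal 𝒪)
    (habs : ρbar.IsAbsolutelyIrreducible)
    (hdet : (GaloisRepAdic.ofResidualGaloisRep ρbar).DetIsCyclotomic p)
    (hsplit : ∀ σ : AlgebraicClosure ℚ ≃ₐ[ℚ] AlgebraicClosure ℚ,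
      ∃ α β : ResidueField 𝒪, LinearMap.charpoly (ρbar.ρ σ) = (X - C α) * (X - C β))
    (hTW : ∀ (K : Type) [Field K] [Algebra (ResidueField 𝒪) K]
      (G : Subgroup (AlgebraicClosure ℚ ≃ₐ[ℚ] AlgebraicClosure ℚ)), G.index = 2 →
      ∀ V : Submodule K (ρbar.baseChange K).V,
        (∀ σ ∈ G, ∀ x ∈ V, (ρbar.baseChange K).ρ σ x ∈ V) → V = ⊥ ∨ V = ⊤)
    (S Smin : Finset ℕ) (hpSmin : p ∈ Smin) (hSmin : Smin ⊆ S)
    (hmin : ∀ q : ℕ, q.Prime → q ≠ p → (q ∈ Smin ↔ ¬ ρbar.IsUnramifiedAt q))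
    (Sig : Finset Nat.Primes) (hSig : ∀ q : Nat.Primes, (q : ℕ) ∈ Smin → q ∈ Sig)
    (htate : ∀ (S' : Finset Nat.Primes)
      [IsDiscrete (levelS S') ((adBar p ρbar b).dualTwist (cycloChar p))],
      Sig ⊆ S' → TateLe S' ((adBar p ρbar b).dualTwist (cycloChar p))) :
    ∃ r : ℕ, ∀ n : ℕ, ∃ qv : Fin r → ℕ, Function.Injective qv ∧
      (∀ i, (qv i).Prime ∧ qv i ∉ S ∧ p ^ (n + 1) ∣ qv i - 1) ∧
      (∀ i, ∀ P : ValuationSubring (AlgebraicClosure ℚ), P.LiesOverPrime (qv i) →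
        ∀ φ : AlgebraicClosure ℚ ≃ₐ[ℚ] AlgebraicClosure ℚ, P.IsFrobeniusAt φ (qv i) →
          ∃ α β : ResidueField 𝒪, α ≠ β ∧
            LinearMap.charpoly (ρbar.ρ φ) = (X - C α) * (X - C β)) ∧
      SelmerBound 𝒪 ρbar b (fun _A _ _ _ ρ =>
        GaloisRep.strictOrdinaryCondition 𝒪 p (Smin ∪ Finset.univ.image qv) ρ ∧
          ∀ q ∈ Smin, q.Prime → q ≠ p → ρ.IsUnipotentOnInertiaAt q) r := by
  have hk : Nat.card (ResidueField 𝒪) = p ^ finrank (ZMod p) (ResidueField 𝒪) :=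
    natCard_eq_pow_finrank_zmod p (ResidueField 𝒪)
  haveI : CharP (ResidueField 𝒪) p := charP_residueField p hp𝒪
  exact selmerBounds_base_adBar p ρbar b (GaloisRep.strictOrdinaryCondition 𝒪 p)
    (baseGlobal_strictOrdinary 𝒪 p) hp2 habs hdet hsplit hTW S Smin hpSmin hSmin hmin Sig hSig
    (fun ρ => ρ.DetIsCyclotomic p ∧ ρ.IsStrictOrdinaryAt p) (fun _T _ρ h => ⟨h.1, h.2.1⟩) htate
    (Fermat.Agent.GP.Loc.StrictOrdLocalCond.localCond_strict ρbar b p
      (adBar p ρbar b) (emb p (toMatRes ρbar b) 1) hp2 hp𝒪 (emb_injective p _ 1)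
      (emb_surjective p _ 1) (emb_ρ_one p _) _ hk)

/-- the flat core: the open binders are `htate` and the flat `LocalCond` at `p` (which may assume
that `ρbar` itself is flat at `p`). -/
theorem coreFL (hp2 : p ≠ 2)
    (habs : ρbar.IsAbsolutelyIrreducible)
    (hdet : (GaloisRepAdic.ofResidualGaloisRep ρbar).DetIsCyclotomic p)
    (hsplit : ∀ σ : AlgebraicClosure ℚ ≃ₐ[ℚ] AlgebraicClosure ℚ,
      ∃ α β : ResidueField 𝒪, LinearMap.charpoly (ρbar.ρ σ) = (X - C α) * (X - C β))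
    (hTW : ∀ (K : Type) [Field K] [Algebra (ResidueField 𝒪) K]
      (G : Subgroup (AlgebraicClosure ℚ ≃ₐ[ℚ] AlgebraicClosure ℚ)), G.index = 2 →
      ∀ V : Submodule K (ρbar.baseChange K).V,
        (∀ σ ∈ G, ∀ x ∈ V, (ρbar.baseChange K).ρ σ x ∈ V) → V = ⊥ ∨ V = ⊤)
    (S Smin : Finset ℕ) (hpSmin : p ∈ Smin) (hSmin : Smin ⊆ S)
    (hmin : ∀ q : ℕ, q.Prime → q ≠ p → (q ∈ Smin ↔ ¬ ρbar.IsUnramifiedAt q))
    (Sig : Finset Nat.Primes) (hSig : ∀ q : Nat.Primes, (q : ℕ) ∈ Smin → q ∈ Sig)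
    (htate : ∀ (S' : Finset Nat.Primes)
      [IsDiscrete (levelS S') ((adBar p ρbar b).dualTwist (cycloChar p))],
      Sig ⊆ S' → TateLe S' ((adBar p ρbar b).dualTwist (cycloChar p)))
    (hflatloc : (GaloisRepAdic.ofResidualGaloisRep ρbar).IsFlatAt p →
      ∀ [IsDiscrete (levelQ p) (Rep.res (localGaloisToGlobal p) (adBar p ρbar b))],
      LocalCond ρbar b p (adBar p ρbar b) (emb p (toMatRes ρbar b) 1) p
        (fun ρ => ρ.DetIsCyclotomic p ∧ ρ.IsFlatAt p) (finrank (ZMod p) (ResidueField 𝒪))) :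
    ∃ r : ℕ, ∀ n : ℕ, ∃ qv : Fin r → ℕ, Function.Injective qv ∧
      (∀ i, (qv i).Prime ∧ qv i ∉ S ∧ p ^ (n + 1) ∣ qv i - 1) ∧
      (∀ i, ∀ P : ValuationSubring (AlgebraicClosure ℚ), P.LiesOverPrime (qv i) →
        ∀ φ : AlgebraicClosure ℚ ≃ₐ[ℚ] AlgebraicClosure ℚ, P.IsFrobeniusAt φ (qv i) →
          ∃ α β : ResidueField 𝒪, α ≠ β ∧
            LinearMap.charpoly (ρbar.ρ φ) = (X - C α) * (X - C β)) ∧
      SelmerBound 𝒪 ρbar b (fun _A _ _ _ ρ =>
        GaloisRep.flatCondition 𝒪 p (Smin ∪ Finset.univ.image qv) ρ ∧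
          ∀ q ∈ Smin, q.Prime → q ≠ p → ρ.IsUnipotentOnInertiaAt q) r := by
  by_cases hflat : (GaloisRepAdic.ofResidualGaloisRep ρbar).IsFlatAt p
  · exact selmerBounds_base_adBar p ρbar b (GaloisRep.flatCondition 𝒪 p)
      (baseGlobal_flat 𝒪 p) hp2 habs hdet hsplit hTW S Smin hpSmin hSmin hmin Sig hSig
      (fun ρ => ρ.DetIsCyclotomic p ∧ ρ.IsFlatAt p) (fun _T _ρ h => ⟨h.1, h.2.1⟩) htate
      (hflatloc hflat)
  · -- degenerate branch: no first-order lift is flat at `p`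
    have hpSig : pPrime p ∈ Sig := hSig (pPrime p) hpSmin
    have hur : ∀ q : Nat.Primes, q ∉ Sig → ρbar.IsUnramifiedAt (q : ℕ) :=
      Fermat.Agent.GP.Tan.SelmerAd0.unramified_outside_of_hmin p ρbar Smin hpSmin hmin Sig hSig
    obtain ⟨r, hTWK⟩ := Fermat.Agent.GP.TW.CzKill.exists_hTWK (p := p) (ρbar := ρbar) (b := b)
      hp2 habs hdet hsplit hTW S Sig hpSig hur
    refine ⟨r, fun n => ?_⟩
    obtain ⟨qv, hinj, h2, h3, -, -⟩ := hTWK n
    refine ⟨qv, hinj, h2, h3, Wlog.selmerBound_of_forall_not b fun ρ hl hc => hflat ?_⟩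
    exact (Fermat.Agent.GP.Tan.cond56_FL_residual p Smin (Finset.univ.image qv) ρbar hl hc).1.2.1

/-- **the frozen S56 from the two residual nodes**: `(R1)` the Tate bound for `(ad⁰ρ̄)^*(1)` at every
level above some `Σ ⊇ Smin` (helper71 `R1Wrap.exists_sigma_htate_adBar`, helper66
`BaseHypOfLeaves.exists_sigma_htate_adBar_of_keyLeaves`) and `(R3-FL)` the flat local condition at
`p` (helper90 `FlatLocalCond.localCond_flat_of_branches`, helper44 `FlatHlocp.hlocp_flat_of_ends`),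
which may assume that `ρbar` itself is flat at `p`.  The instance
`[Algebra (ZMod p) (ResidueField 𝒪)]` is discharged in `S56.lean` by
`letI := Ad0.algebraResidueField p hp𝒪`. -/
theorem s56_of_htate_flatloc (hp2 : p ≠ 2) (hp𝒪 : (p : 𝒪) ∈ maximalIdeal 𝒪)
    (habs : ρbar.IsAbsolutelyIrreducible)
    (hdet : (GaloisRepAdic.ofResidualGaloisRep ρbar).DetIsCyclotomic p)
    (hsplit : ∀ σ : AlgebraicClosure ℚ ≃ₐ[ℚ] AlgebraicClosure ℚ,
      ∃ α β : ResidueField 𝒪, LinearMap.charpoly (ρbar.ρ σ) = (X - C α) * (X - C β))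
    (hTW : ∀ (K : Type) [Field K] [Algebra (ResidueField 𝒪) K]
      (G : Subgroup (AlgebraicClosure ℚ ≃ₐ[ℚ] AlgebraicClosure ℚ)), G.index = 2 →
      ∀ V : Submodule K (ρbar.baseChange K).V,
        (∀ σ ∈ G, ∀ x ∈ V, (ρbar.baseChange K).ρ σ x ∈ V) → V = ⊥ ∨ V = ⊤)
    (S Smin : Finset ℕ) (hpSmin : p ∈ Smin) (hSmin : Smin ⊆ S)
    (hmin : ∀ q : ℕ, q.Prime → q ≠ p → (q ∈ Smin ↔ ¬ ρbar.IsUnramifiedAt q))
    (hR1 : ∃ Sig : Finset Nat.Primes, (∀ q : Nat.Primes, (q : ℕ) ∈ Smin → q ∈ Sig) ∧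
      ∀ (S' : Finset Nat.Primes)
        [IsDiscrete (levelS S') ((adBar p ρbar b).dualTwist (cycloChar p))],
        Sig ⊆ S' → TateLe S' ((adBar p ρbar b).dualTwist (cycloChar p)))
    (hR3 : (GaloisRepAdic.ofResidualGaloisRep ρbar).IsFlatAt p →
      ∀ [IsDiscrete (levelQ p) (Rep.res (localGaloisToGlobal p) (adBar p ρbar b))],
      LocalCond ρbar b p (adBar p ρbar b) (emb p (toMatRes ρbar b) 1) p
        (fun ρ => ρ.DetIsCyclotomic p ∧ ρ.IsFlatAt p) (finrank (ZMod p) (ResidueField 𝒪))) :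
    (∃ r : ℕ, ∀ n : ℕ, ∃ qv : Fin r → ℕ, Function.Injective qv ∧
      (∀ i, (qv i).Prime ∧ qv i ∉ S ∧ p ^ (n + 1) ∣ qv i - 1) ∧
      (∀ i, ∀ P : ValuationSubring (AlgebraicClosure ℚ), P.LiesOverPrime (qv i) →
        ∀ φ : AlgebraicClosure ℚ ≃ₐ[ℚ] AlgebraicClosure ℚ, P.IsFrobeniusAt φ (qv i) →
          ∃ α β : ResidueField 𝒪, α ≠ β ∧ LinearMap.charpoly (ρbar.ρ φ) = (X - C α) * (X - C β)) ∧
      ∀ DQ : GaloisRep.DeformationRingData 𝒪 ρbar (fun _A _ _ _ ρ =>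
          GaloisRep.strictOrdinaryCondition 𝒪 p (Smin ∪ Finset.univ.image qv) ρ ∧
            ∀ q ∈ Smin, q.Prime → q ≠ p → ρ.IsUnipotentOnInertiaAt q),
        ∃ γ : MvPowerSeries (Fin r) 𝒪 →ₐ[𝒪] DQ.R, Function.Surjective γ) ∧
    (∃ r : ℕ, ∀ n : ℕ, ∃ qv : Fin r → ℕ, Function.Injective qv ∧
      (∀ i, (qv i).Prime ∧ qv i ∉ S ∧ p ^ (n + 1) ∣ qv i - 1) ∧
      (∀ i, ∀ P : ValuationSubring (AlgebraicClosure ℚ), P.LiesOverPrime (qv i) →
        ∀ φ : AlgebraicClosure ℚ ≃ₐ[ℚ] AlgebraicClosure ℚ, P.IsFrobeniusAt φ (qv i) →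
          ∃ α β : ResidueField 𝒪, α ≠ β ∧ LinearMap.charpoly (ρbar.ρ φ) = (X - C α) * (X - C β)) ∧
      ∀ DQ : GaloisRep.DeformationRingData 𝒪 ρbar (fun _A _ _ _ ρ =>
          GaloisRep.flatCondition 𝒪 p (Smin ∪ Finset.univ.image qv) ρ ∧
            ∀ q ∈ Smin, q.Prime → q ≠ p → ρ.IsUnipotentOnInertiaAt q),
        ∃ γ : MvPowerSeries (Fin r) 𝒪 →ₐ[𝒪] DQ.R, Function.Surjective γ) := by
  obtain ⟨Sig, hSig, htate⟩ := hR1
  exact s56_of_selmerBounds p ρbar b S Smin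
    (coreSO p ρbar b hp2 hp𝒪 habs hdet hsplit hTW S Smin hpSmin hSmin hmin Sig hSig htate)
    (coreFL p ρbar b hp2 habs hdet hsplit hTW S Smin hpSmin hSmin hmin Sig hSig htate hR3)

end Cores

end Fermat.Agent.GP.Core.CoreInstAdBar
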