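/-
GATE-P / S56-CORE-ABS (helper35): the model-independent half of the CORE assembly.

`helper39`'s `GP/Top/S56OfGates.s56_of_gates` consumes `TWGate`, i.e. `SelmerGate` (a `k`-vector
space `W` of dimension `≤ r` classifying the first-order deformations).  The number-theoretic side
counts CARDINALITIES of `𝔽_p`-Selmer groups.  Here:

* `exists_injective_pointed` : an injection of a finite pointed set of cardinality `≤ |k|^r` into
  `Fin r → k` sending the base point to `0`;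
* `selmerGate_of_card` : `SelmerGate 𝒪 ρbar 𝒟 r` from ANY finite pointed set `T` with
  `|T| ≤ |k|^r` and a class map `cl` on the `k[ε]`-lifts with (i) equal classes ⟹ equivalent,
  (ii) base-point class ⟹ constant;
* `twGate_of_abstract` : `TWGate` from abstract Selmer data indexed by the auxiliary sets `Q`:
  (GW) `|T_Q| ≤ D_Q * |k|^{|Q|}` and (TW) auxiliary sets with `D_Q = 1`.
NEW file; imports only.
-/
import Fermat.Agent.GP.Top.S56OfGates

set_option autoImplicit false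
set_option linter.unusedSectionVars false

noncomputable section

namespace Fermat.Agent.GP.Core

open IsLocalRing Polynomial Function Fermat.Agent.GP.Top

/-- a finite pointed set with at most `|k|^r` elements injects into `Fin r → k`, base point to
`0`. -/
theorem exists_injective_pointed {k : Type*} [Field k] [Finite k] {T : Type*} [Finite T]
    (pt : T) {r : ℕ} (hcard : Nat.card T ≤ Nat.card k ^ r) :
    ∃ j : T → (Fin r → k), Injective j ∧ j pt = 0 := by
  classical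
  have hW : Nat.card (Fin r → k) = Nat.card k ^ r := by
    rw [Nat.card_fun, Nat.card_eq_fintype_card (α := Fin r), Fintype.card_fin]
  have : Nonempty (T ↪ (Fin r → k)) := by
    haveI := Fintype.ofFinite T
    haveI := Fintype.ofFinite (Fin r → k)
    apply Function.Embedding.nonempty_of_card_le
    rw [← Nat.card_eq_fintype_card, ← Nat.card_eq_fintype_card, hW]
    exact hcard
  obtain ⟨e⟩ := this
  refine ⟨fun t => e t - e pt, fun a b h => ?_, sub_self _⟩
  exact e.injective (sub_left_injective h)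

section Gate

variable {𝒪 : Type} [CommRing 𝒪] [IsDomain 𝒪] [IsDiscreteValuationRing 𝒪]
  [IsAdicComplete (maximalIdeal 𝒪) 𝒪] [Finite (ResidueField 𝒪)]
  {ρbar : ResidualGaloisRep (ResidueField 𝒪)}

/-- **`SelmerGate` from a cardinality bound**: the classifying object may be any finite pointed
set. -/
theorem selmerGate_of_card
    {𝒟 : ∀ ⦃A : Type⦄ [CommRing A] [IsLocalRing A] [Algebra 𝒪 A], GaloisRepAdic A → Prop}
    {r : ℕ} (T : Type) [Finite T] (pt : T)
    (hcard : Nat.card T ≤ Nat.card (ResidueField 𝒪) ^ r)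
    (cl : GaloisRepAdic (DualNumber (ResidueField 𝒪)) → T)
    (h1 : ∀ ρ₁ ρ₂ : GaloisRepAdic (DualNumber (ResidueField 𝒪)),
      IsLift 𝒪 ρbar ρ₁ → IsLift 𝒪 ρbar ρ₂ → 𝒟 ρ₁ → 𝒟 ρ₂ → cl ρ₁ = cl ρ₂ → ρ₁.IsEquiv ρ₂)
    (h2 : ∀ ρ₁ : GaloisRepAdic (DualNumber (ResidueField 𝒪)),
      IsLift 𝒪 ρbar ρ₁ → 𝒟 ρ₁ → cl ρ₁ = pt →
        ρ₁.IsEquiv (ρ₁.baseChangeAlong
          ((theta 𝒪 : DualNumber (ResidueField 𝒪) →ₐ[𝒪] DualNumber (ResidueField 𝒪)) :
            DualNumber (ResidueField 𝒪) →+* DualNumber (ResidueField 𝒪))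
          (isLocalHom_theta 𝒪))) :
    SelmerGate 𝒪 ρbar 𝒟 r := by
  obtain ⟨j, hj, hj0⟩ := exists_injective_pointed (k := ResidueField 𝒪) pt hcard
  refine ⟨Fin r → ResidueField 𝒪, inferInstance, inferInstance, inferInstance, ?_,
    fun ρ => j (cl ρ), ?_, ?_⟩
  · rw [Module.finrank_pi, Fintype.card_fin]
  · intro ρ₁ ρ₂ hl1 hl2 hd1 hd2 h
    exact h1 ρ₁ ρ₂ hl1 hl2 hd1 hd2 (hj h)
  · intro ρ₁ hl1 hd1 h
    exact h2 ρ₁ hl1 hd1 (hj (h.trans hj0.symm))

/-- **`TWGate` from abstract Selmer data.**  For every auxiliary set `Q`: a finite pointed set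
`T Q` classifying the first-order deformations of type `cond56 … Q`, and a number `D Q` (the
cardinality of the dual Selmer group) with
(GW) `|T Q| ≤ D Q * |k|^{|Q|}`; and (TW) for every `n` an auxiliary set (the frozen clauses) with
`D Q = 1`. -/
theorem twGate_of_abstract
    (base : Finset ℕ → ∀ ⦃A : Type⦄ [CommRing A] [IsLocalRing A] [Algebra 𝒪 A],
      GaloisRepAdic A → Prop)
    (p : ℕ) (S Smin : Finset ℕ)
    (T : Finset ℕ → Type) [∀ Q, Finite (T Q)] (pt : ∀ Q, T Q)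
    (cl : ∀ Q, GaloisRepAdic (DualNumber (ResidueField 𝒪)) → T Q)
    (D : Finset ℕ → ℕ)
    (h1 : ∀ Q, ∀ ρ₁ ρ₂ : GaloisRepAdic (DualNumber (ResidueField 𝒪)),
      IsLift 𝒪 ρbar ρ₁ → IsLift 𝒪 ρbar ρ₂ → cond56 𝒪 base p Smin Q ρ₁ →
        cond56 𝒪 base p Smin Q ρ₂ → cl Q ρ₁ = cl Q ρ₂ → ρ₁.IsEquiv ρ₂)
    (h2 : ∀ Q, ∀ ρ₁ : GaloisRepAdic (DualNumber (ResidueField 𝒪)),
      IsLift 𝒪 ρbar ρ₁ → cond56 𝒪 base p Smin Q ρ₁ → cl Q ρ₁ = pt Q →
        ρ₁.IsEquiv (ρ₁.baseChangeAlong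
          ((theta 𝒪 : DualNumber (ResidueField 𝒪) →ₐ[𝒪] DualNumber (ResidueField 𝒪)) :
            DualNumber (ResidueField 𝒪) →+* DualNumber (ResidueField 𝒪))
          (isLocalHom_theta 𝒪)))
    (hTW : ∃ r : ℕ, ∀ n : ℕ, ∃ qv : Fin r → ℕ, Function.Injective qv ∧
      (∀ i, (qv i).Prime ∧ qv i ∉ S ∧ p ^ (n + 1) ∣ qv i - 1) ∧
      (∀ i, ∀ P : ValuationSubring (AlgebraicClosure ℚ), P.LiesOverPrime (qv i) →
        ∀ φ : AlgebraicClosure ℚ ≃ₐ[ℚ] AlgebraicClosure ℚ, P.IsFrobeniusAt φ (qv i) →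
          ∃ α β : ResidueField 𝒪, α ≠ β ∧
            LinearMap.charpoly (ρbar.ρ φ) = (X - C α) * (X - C β)) ∧
      D (Finset.univ.image qv) = 1 ∧
      Nat.card (T (Finset.univ.image qv)) ≤
        D (Finset.univ.image qv) * Nat.card (ResidueField 𝒪) ^ (Finset.univ.image qv).card) :
    TWGate 𝒪 base p ρbar S Smin := by
  obtain ⟨r, hr⟩ := hTW
  refine ⟨r, fun n => ?_⟩
  obtain ⟨qv, hinj, hcl, hfrob, hD, hGW⟩ := hr n
  refine ⟨qv, hinj, hcl, hfrob, ?_⟩
  have hcardQ : (Finset.univ.image qv).card = r := by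
    rw [Finset.card_image_of_injective _ hinj, Finset.card_univ, Fintype.card_fin]
  rw [hD, one_mul, hcardQ] at hGW
  exact selmerGate_of_card (T (Finset.univ.image qv)) (pt _) hGW (cl _) (h1 _) (h2 _)

end Gate

end Fermat.Agent.GP.Core
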