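/-
GATE-P / S56 [CORE] (helper55, 2nd seat of helper35/helper39): **the whole CORE with exactly TWO
residual binders**, and the frozen statement S56 from them.

* `core_generic` : `CoreAsm.selmerBounds_base_of_nodes` at `N := adBar p ρbar b`,
  `emb := Ad0.emb p (toMatRes ρbar b) 1` with EVERY binder discharged from the frozen hypotheses
  of S56 except
    (R1) `htate` : `∀ S' ⊇ Sig, TateLe S' (adBar)*`  ([P-GW]), and
    (R3) `hlocp` : the local condition at `p` ([P-LOC] strict / [P-FLAT] flat),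
  generic in the base condition `base` and its local part `Pp` at `p`.
  Plugged: helper49 `CzKill.exists_hTWK` (R2), helper32 `SminLocalCondPlug` (R4, R5), helper67
  `TWQFinrank.hlocQ_adBar` (R6), helper94 `Ad0RepH0`/`Ad0RepArch`/`Ad0RepPlug`, helper19
  `NineTermFinal.preEuler_holds`/`NineTermQ.isDiscrete_dual`, helper59 `nonempty_ptData`, helper11
  `SelmerAd0.unramified_outside_of_hmin`/`SelmerCard.natCard_eq_pow_finrank_zmod`.
* `coreSO_of_htate`, `coreFL_of_htate_hlocp` : the two instances (strict: helper79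
  `StrictOrdLocalCondPlug.hlocp_strict`, no local binder left).
* `s56_of_R1_R3FL` : the FROZEN statement S56 (binders in the frozen order) from (R1) and (R3-FL).
NEW file; imports only.
-/
import Mathlib
import Fermat.Agent.GP.Core.CoreAsm
import Fermat.Agent.GP.TW.CzKill
import Fermat.Agent.GP.Loc.SminLocalCondPlug
import Fermat.Agent.GP.Loc.TWQFinrank
import Fermat.Agent.GP.Loc.StrictOrdLocalCondPlug
import Fermat.Agent.GP.Bridge.Ad0RepH0
import Fermat.Agent.GP.Bridge.Ad0RepArch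
import Fermat.Agent.GP.Bridge.Ad0RepPlug
import Fermat.Agent.GP.GW.NineTermFinal
import Fermat.Agent.GP.GW.NineTermQ
import Fermat.Agent.GP.Tan.SelmerAd0
import Fermat.Agent.GP.Tan.TanTop

set_option autoImplicit false
set_option linter.unusedSectionVars false
set_option linter.style.haveILetI false

namespace Fermat.Agent.GP.Core.Generic

open IsLocalRing Fermat.Agent.S53_helper35 Matrix Fermat.Agent.GP.Tan.Cocycle
  Fermat.Agent.GP.Tan.TanTop Fermat.Agent.GP.Tan.SelmerFrozen Fermat.Agent.GP.Tan.SelmerCard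
  Fermat.Agent.GC.Prof Fermat.Agent.GC.Prof.Cone Fermat.Agent.GC.Places
  Fermat.Agent.GC.Local.KR Fermat.Agent.GC.PT.LocDataQ Fermat.Agent.GC.C0
  Fermat.Agent.GP.GW groupCohomology ExtCitation Module Polynomial CategoryTheory
  Fermat.Agent.GP.Bridge.Ad0 Fermat.Agent.GP.Core

local instance factPrimeGeneric (q : Nat.Primes) : Fact ((q : ℕ).Prime) := ⟨q.2⟩

section

variable {𝒪 : Type} [CommRing 𝒪] [IsLocalRing 𝒪] [Finite (ResidueField 𝒪)]
  (p : ℕ) [Fact p.Prime] [Algebra (ZMod p) (ResidueField 𝒪)]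
  (ρbar : ResidualGaloisRep (ResidueField 𝒪))
  (b : Module.Basis (Fin 2) (ResidueField 𝒪) ρbar.V)

/-- generic core: `base` any frozen-shaped base condition, `Pp` its local part at `p`. -/
theorem core_generic (hp2 : p ≠ 2) (hp𝒪 : (p : 𝒪) ∈ maximalIdeal 𝒪)
    (habs : ρbar.IsAbsolutelyIrreducible)
    (hdet : (GaloisRepAdic.ofResidualGaloisRep ρbar).DetIsCyclotomic p)
    (hsplit : ∀ σ : AlgebraicClosure ℚ ≃ₐ[ℚ] AlgebraicClosure ℚ,
      ∃ α β : ResidueField 𝒪, LinearMap.charpoly (ρbar.ρ σ) = (X - C α) * (X - C β))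
    (hTW : ∀ (K : Type) [Field K] [Algebra (ResidueField 𝒪) K]
      (G : Subgroup (AlgebraicClosure ℚ ≃ₐ[ℚ] AlgebraicClosure ℚ)), G.index = 2 →
      ∀ V : Submodule K (ρbar.baseChange K).V,
        (∀ σ ∈ G, ∀ x ∈ V, (ρbar.baseChange K).ρ σ x ∈ V) → V = ⊥ ∨ V = ⊤)
    (S Smin : Finset ℕ) (hpSmin : p ∈ Smin) (hSmin : Smin ⊆ S)
    (hmin : ∀ q : ℕ, q.Prime → q ≠ p → (q ∈ Smin ↔ ¬ ρbar.IsUnramifiedAt q))
    (base : Finset ℕ → ∀ ⦃A : Type⦄ [CommRing A] [IsLocalRing A] [Algebra 𝒪 A],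
      GaloisRepAdic A → Prop)
    (hbase : BaseGlobal 𝒪 p base)
    (Pp : GaloisRepAdic (DualNumber (ResidueField 𝒪)) → Prop)
    (hbaseP : ∀ (T : Finset ℕ) (ρ : GaloisRepAdic (DualNumber (ResidueField 𝒪))),
      base T ρ → Pp ρ)
    (Sig : Finset Nat.Primes) (hSig : ∀ q : Nat.Primes, (q : ℕ) ∈ Smin → q ∈ Sig)
    -- (R1)
    (htate : ∀ (S' : Finset Nat.Primes)
      [IsDiscrete (levelS S') ((adBar p ρbar b).dualTwist (cycloChar p))],
      Sig ⊆ S' → TateLe S' ((adBar p ρbar b).dualTwist (cycloChar p)))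
    -- (R3)
    (hlocp : ∀ (hdloc : ∀ q : Nat.Primes,
        IsDiscrete (levelQ (q : ℕ)) (Rep.res (localGaloisToGlobal (q : ℕ)) (adBar p ρbar b)))
      (q : Nat.Primes), (q : ℕ) = p →
      @LocalCond 𝒪 _ _ ρbar b p _ (adBar p ρbar b) (emb p (toMatRes ρbar b) 1) (q : ℕ) _
        (hdloc q) Pp (finrank (ZMod p) (ResidueField 𝒪))) :
    ∃ r : ℕ, ∀ n : ℕ, ∃ qv : Fin r → ℕ, Function.Injective qv ∧
      (∀ i, (qv i).Prime ∧ qv i ∉ S ∧ p ^ (n + 1) ∣ qv i - 1) ∧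
      (∀ i, ∀ P : ValuationSubring (AlgebraicClosure ℚ), P.LiesOverPrime (qv i) →
        ∀ φ : AlgebraicClosure ℚ ≃ₐ[ℚ] AlgebraicClosure ℚ, P.IsFrobeniusAt φ (qv i) →
          ∃ α β : ResidueField 𝒪, α ≠ β ∧
            LinearMap.charpoly (ρbar.ρ φ) = (X - C α) * (X - C β)) ∧
      SelmerBound 𝒪 ρbar b (fun _A _ _ _ ρ =>
        base (Smin ∪ Finset.univ.image qv) ρ ∧
          ∀ q ∈ Smin, q.Prime → q ≠ p → ρ.IsUnipotentOnInertiaAt q) r := by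
  have h2 : (2 : ResidueField 𝒪) ≠ 0 := two_ne_zero_residueField p hp𝒪 hp2
  haveI : CharP (ResidueField 𝒪) p := charP_residueField p hp𝒪
  have hpSig : pPrime p ∈ Sig := hSig (pPrime p) hpSmin
  have hur : ∀ (S' : Finset Nat.Primes), Sig ⊆ S' →
      ∀ q : Nat.Primes, q ∉ S' → ρbar.IsUnramifiedAt (q : ℕ) := fun S' hsub =>
    Fermat.Agent.GP.Tan.SelmerAd0.unramified_outside_of_hmin p ρbar Smin hpSmin hmin S'
      (fun q hq => hsub (hSig q hq))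
  have hdN : ∀ S' : Finset Nat.Primes, Sig ⊆ S' → IsDiscrete (levelS S') (adBar p ρbar b) :=
    fun S' hsub => isDiscrete_adBar p ρbar b S' (hur S' hsub)
  have hdT : ∀ S' : Finset Nat.Primes, Sig ⊆ S' → IsDiscrete (levelS S') (TChi p) :=
    fun S' hsub => isDiscrete_TChi S' (hsub hpSig)
  have hdNs : ∀ S' : Finset Nat.Primes, Sig ⊆ S' →
      IsDiscrete (levelS S') ((adBar p ρbar b).dualTwist (cycloChar p)) := fun S' hsub => by
    haveI := hdN S' hsub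
    exact NineTermQ.isDiscrete_dual (hsub hpSig) (adBar p ρbar b)
  have hdloc : ∀ q : Nat.Primes,
      IsDiscrete (levelQ (q : ℕ)) (Rep.res (localGaloisToGlobal (q : ℕ)) (adBar p ρbar b)) :=
    fun q => by
      haveI := hdN Sig (Finset.Subset.refl _)
      exact isDiscrete_res_localGaloisToGlobal Sig (q : ℕ) (adBar p ρbar b)
  obtain ⟨r, hTWK⟩ := Fermat.Agent.GP.TW.CzKill.exists_hTWK p ρbar b hp2 habs hdet hsplit hTW S Sig
    hpSig (hur Sig (Finset.Subset.refl _))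
  exact selmerBounds_base_of_nodes ρbar b p base hbase (adBar p ρbar b)
    (emb p (toMatRes ρbar b) 1) (emb_injective p (toMatRes ρbar b) 1)
    (emb_surjective p (toMatRes ρbar b) 1) (emb_ρ_one p (toMatRes ρbar b))
    hp2 h2 S Smin hpSmin hSmin Sig hSig (finrank (ZMod p) (ResidueField 𝒪))
    (natCard_eq_pow_finrank_zmod p (ResidueField 𝒪)) Pp hbaseP hdT hdN hdNs hdloc
    (fun S' _ hsub => nonempty_ptData hp2 S' (hsub hpSig))
    (fun S' _ _ _ hsub Δ L => NineTermFinal.preEuler_holds Δ (hsub hpSig) (adBar p ρbar b) L)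
    htate
    (fun S' _ _ => finrank_Hlc_zero_adBar p ρbar b S' habs h2)
    (finrank_ker_conj_adBar p ρbar b hp2 hdet).symm.le
    r hTWK
    (hlocp hdloc)
    (Fermat.Agent.GP.Loc.SminHlc.hlocSmin_of_hmin ρbar b p (adBar p ρbar b)
      (emb p (toMatRes ρbar b) 1) (emb_injective p (toMatRes ρbar b) 1)
      (emb_surjective p (toMatRes ρbar b) 1) (emb_ρ_one p (toMatRes ρbar b)) hdloc hp2 Smin hmin)
    (fun q _ _ _ => Fermat.Agent.GP.Loc.SminHlc.hlocUnr_all ρbar b p (adBar p ρbar b)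
      (emb p (toMatRes ρbar b) 1) (emb_injective p (toMatRes ρbar b) 1) hdloc q)
    (Fermat.Agent.GP.Loc.TWQFinrank.hlocQ_adBar p ρbar b S (hSmin hpSmin) Sig
      (hur Sig (Finset.Subset.refl _)) hdloc
      (natCard_eq_pow_finrank_zmod p (ResidueField 𝒪)))

end

section Frozen

variable {𝒪 : Type} [CommRing 𝒪] [IsLocalRing 𝒪] [Finite (ResidueField 𝒪)]
  (p : ℕ) [Fact p.Prime] [Algebra (ZMod p) (ResidueField 𝒪)]
  (ρbar : ResidualGaloisRep (ResidueField 𝒪))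
  (b : Module.Basis (Fin 2) (ResidueField 𝒪) ρbar.V)

/-- the strict-ordinary core: only (R1) left. -/
theorem coreSO_of_htate (hp2 : p ≠ 2) (hp𝒪 : (p : 𝒪) ∈ maximalIdeal 𝒪)
    (habs : ρbar.IsAbsolutelyIrreducible)
    (hdet : (GaloisRepAdic.ofResidualGaloisRep ρbar).DetIsCyclotomic p)
    (hsplit : ∀ σ : AlgebraicClosure ℚ ≃ₐ[ℚ] AlgebraicClosure ℚ,
      ∃ α β : ResidueField 𝒪, LinearMap.charpoly (ρbar.ρ σ) = (X - C α) * (X - C β))
    (hTW : ∀ (K : Type) [Field K] [Algebra (ResidueField 𝒪) K]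
      (G : Subgroup (AlgebraicClosure ℚ ≃ₐ[ℚ] AlgebraicClosure ℚ)), G.index = 2 →
      ∀ V : Submodule K (ρbar.baseChange K).V,
        (∀ σ ∈ G, ∀ x ∈ V, (ρbar.baseChange K).ρ σ x ∈ V) → V = ⊥ ∨ V = ⊤)
    (S Smin : Finset ℕ) (hpSmin : p ∈ Smin) (hSmin : Smin ⊆ S)
    (hmin : ∀ q : ℕ, q.Prime → q ≠ p → (q ∈ Smin ↔ ¬ ρbar.IsUnramifiedAt q))
    (Sig : Finset Nat.Primes) (hSig : ∀ q : Nat.Primes, (q : ℕ) ∈ Smin → q ∈ Sig)
    (htate : ∀ (S' : Finset Nat.Primes)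
      [IsDiscrete (levelS S') ((adBar p ρbar b).dualTwist (cycloChar p))],
      Sig ⊆ S' → TateLe S' ((adBar p ρbar b).dualTwist (cycloChar p))) :
    ∃ r : ℕ, ∀ n : ℕ, ∃ qv : Fin r → ℕ, Function.Injective qv ∧
      (∀ i, (qv i).Prime ∧ qv i ∉ S ∧ p ^ (n + 1) ∣ qv i - 1) ∧
      (∀ i, ∀ P : ValuationSubring (AlgebraicClosure ℚ), P.LiesOverPrime (qv i) →
        ∀ φ : AlgebraicClosure ℚ ≃ₐ[ℚ] AlgebraicClosure ℚ, P.IsFrobeniusAt φ (qv i) →
          ∃ α β : ResidueField 𝒪, α ≠ β ∧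
            LinearMap.charpoly (ρbar.ρ φ) = (X - C α) * (X - C β)) ∧
      SelmerBound 𝒪 ρbar b (fun _A _ _ _ ρ =>
        GaloisRep.strictOrdinaryCondition 𝒪 p (Smin ∪ Finset.univ.image qv) ρ ∧
          ∀ q ∈ Smin, q.Prime → q ≠ p → ρ.IsUnipotentOnInertiaAt q) r :=
  core_generic p ρbar b hp2 hp𝒪 habs hdet hsplit hTW S Smin hpSmin hSmin hmin
    (GaloisRep.strictOrdinaryCondition 𝒪 p) (baseGlobal_strictOrdinary 𝒪 p)
    (fun ρ => ρ.DetIsCyclotomic p ∧ ρ.IsStrictOrdinaryAt p) (fun _ _ h => ⟨h.1, h.2.1⟩)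
    Sig hSig htate
    (fun hdloc => Fermat.Agent.GP.Loc.StrictOrdLocalCond.hlocp_strict ρbar b p (adBar p ρbar b)
      (emb p (toMatRes ρbar b) 1) hp2 hp𝒪 (emb_injective p (toMatRes ρbar b) 1)
      (emb_surjective p (toMatRes ρbar b) 1) (emb_ρ_one p (toMatRes ρbar b)) hdloc
      (finrank (ZMod p) (ResidueField 𝒪)) (natCard_eq_pow_finrank_zmod p (ResidueField 𝒪)))

/-- the flat core: (R1) and (R3-FL) left. -/
theorem coreFL_of_htate_hlocp (hp2 : p ≠ 2) (hp𝒪 : (p : 𝒪) ∈ maximalIdeal 𝒪)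
    (habs : ρbar.IsAbsolutelyIrreducible)
    (hdet : (GaloisRepAdic.ofResidualGaloisRep ρbar).DetIsCyclotomic p)
    (hsplit : ∀ σ : AlgebraicClosure ℚ ≃ₐ[ℚ] AlgebraicClosure ℚ,
      ∃ α β : ResidueField 𝒪, LinearMap.charpoly (ρbar.ρ σ) = (X - C α) * (X - C β))
    (hTW : ∀ (K : Type) [Field K] [Algebra (ResidueField 𝒪) K]
      (G : Subgroup (AlgebraicClosure ℚ ≃ₐ[ℚ] AlgebraicClosure ℚ)), G.index = 2 →
      ∀ V : Submodule K (ρbar.baseChange K).V,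
        (∀ σ ∈ G, ∀ x ∈ V, (ρbar.baseChange K).ρ σ x ∈ V) → V = ⊥ ∨ V = ⊤)
    (S Smin : Finset ℕ) (hpSmin : p ∈ Smin) (hSmin : Smin ⊆ S)
    (hmin : ∀ q : ℕ, q.Prime → q ≠ p → (q ∈ Smin ↔ ¬ ρbar.IsUnramifiedAt q))
    (Sig : Finset Nat.Primes) (hSig : ∀ q : Nat.Primes, (q : ℕ) ∈ Smin → q ∈ Sig)
    (htate : ∀ (S' : Finset Nat.Primes)
      [IsDiscrete (levelS S') ((adBar p ρbar b).dualTwist (cycloChar p))],
      Sig ⊆ S' → TateLe S' ((adBar p ρbar b).dualTwist (cycloChar p)))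
    (hlocp : ∀ (hdloc : ∀ q : Nat.Primes,
        IsDiscrete (levelQ (q : ℕ)) (Rep.res (localGaloisToGlobal (q : ℕ)) (adBar p ρbar b)))
      (q : Nat.Primes), (q : ℕ) = p →
      @LocalCond 𝒪 _ _ ρbar b p _ (adBar p ρbar b) (emb p (toMatRes ρbar b) 1) (q : ℕ) _
        (hdloc q) (fun ρ => ρ.DetIsCyclotomic p ∧ ρ.IsFlatAt p)
        (finrank (ZMod p) (ResidueField 𝒪))) :
    ∃ r : ℕ, ∀ n : ℕ, ∃ qv : Fin r → ℕ, Function.Injective qv ∧
      (∀ i, (qv i).Prime ∧ qv i ∉ S ∧ p ^ (n + 1) ∣ qv i - 1) ∧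
      (∀ i, ∀ P : ValuationSubring (AlgebraicClosure ℚ), P.LiesOverPrime (qv i) →
        ∀ φ : AlgebraicClosure ℚ ≃ₐ[ℚ] AlgebraicClosure ℚ, P.IsFrobeniusAt φ (qv i) →
          ∃ α β : ResidueField 𝒪, α ≠ β ∧
            LinearMap.charpoly (ρbar.ρ φ) = (X - C α) * (X - C β)) ∧
      SelmerBound 𝒪 ρbar b (fun _A _ _ _ ρ =>
        GaloisRep.flatCondition 𝒪 p (Smin ∪ Finset.univ.image qv) ρ ∧
          ∀ q ∈ Smin, q.Prime → q ≠ p → ρ.IsUnipotentOnInertiaAt q) r :=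
  core_generic p ρbar b hp2 hp𝒪 habs hdet hsplit hTW S Smin hpSmin hSmin hmin
    (GaloisRep.flatCondition 𝒪 p) (baseGlobal_flat 𝒪 p)
    (fun ρ => ρ.DetIsCyclotomic p ∧ ρ.IsFlatAt p) (fun _ _ h => ⟨h.1, h.2.1⟩)
    Sig hSig htate hlocp

end Frozen

section S56

/-- **The frozen statement S56 from (R1) and (R3-FL)**; binders in the frozen order, then the two
residual nodes (stated for the canonical `𝔽_p`-algebra structure of the residue field and an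
arbitrary basis `b` of `ρbar.V`). -/
theorem s56_of_R1_R3FL
    {𝒪 : Type} [CommRing 𝒪] [IsDomain 𝒪] [IsDiscreteValuationRing 𝒪]
    [IsAdicComplete (maximalIdeal 𝒪) 𝒪] [Finite (ResidueField 𝒪)]
    (p : ℕ) [Fact p.Prime] (hp2 : p ≠ 2) (hp𝒪 : (p : 𝒪) ∈ maximalIdeal 𝒪)
    (ρbar : ResidualGaloisRep (ResidueField 𝒪))
    (habs : ρbar.IsAbsolutelyIrreducible)
    (hdet : (GaloisRepAdic.ofResidualGaloisRep ρbar).DetIsCyclotomic p)
    (hsplit : ∀ σ : AlgebraicClosure ℚ ≃ₐ[ℚ] AlgebraicClosure ℚ,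
      ∃ α β : ResidueField 𝒪, LinearMap.charpoly (ρbar.ρ σ) = (X - C α) * (X - C β))
    (hTW : ∀ (K : Type) [Field K] [Algebra (ResidueField 𝒪) K]
      (G : Subgroup (AlgebraicClosure ℚ ≃ₐ[ℚ] AlgebraicClosure ℚ)), G.index = 2 →
      ∀ V : Submodule K (ρbar.baseChange K).V,
        (∀ σ ∈ G, ∀ x ∈ V, (ρbar.baseChange K).ρ σ x ∈ V) → V = ⊥ ∨ V = ⊤)
    (S Smin : Finset ℕ) (hpSmin : p ∈ Smin) (hSmin : Smin ⊆ S) (hS : ∀ q ∈ S, q.Prime)
    (hmin : ∀ q : ℕ, q.Prime → q ≠ p → (q ∈ Smin ↔ ¬ ρbar.IsUnramifiedAt q))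
    (hR1 : letI := algebraResidueField p hp𝒪
      ∀ b : Module.Basis (Fin 2) (ResidueField 𝒪) ρbar.V,
        ∃ Sig : Finset Nat.Primes, (∀ q : Nat.Primes, (q : ℕ) ∈ Smin → q ∈ Sig) ∧
          ∀ (S' : Finset Nat.Primes)
            [IsDiscrete (levelS S') ((adBar p ρbar b).dualTwist (cycloChar p))],
            Sig ⊆ S' → TateLe S' ((adBar p ρbar b).dualTwist (cycloChar p)))
    (hR3FL : letI := algebraResidueField p hp𝒪
      ∀ (b : Module.Basis (Fin 2) (ResidueField 𝒪) ρbar.V)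
        (hdloc : ∀ q : Nat.Primes,
          IsDiscrete (levelQ (q : ℕ)) (Rep.res (localGaloisToGlobal (q : ℕ)) (adBar p ρbar b)))
        (q : Nat.Primes), (q : ℕ) = p →
        @LocalCond 𝒪 _ _ ρbar b p _ (adBar p ρbar b) (emb p (toMatRes ρbar b) 1) (q : ℕ) _
          (hdloc q) (fun ρ => ρ.DetIsCyclotomic p ∧ ρ.IsFlatAt p)
          (finrank (ZMod p) (ResidueField 𝒪))) :
    (∃ r : ℕ, ∀ n : ℕ, ∃ qv : Fin r → ℕ, Function.Injective qv ∧
      (∀ i, (qv i).Prime ∧ qv i ∉ S ∧ p ^ (n + 1) ∣ qv i - 1) ∧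
      (∀ i, ∀ P : ValuationSubring (AlgebraicClosure ℚ), P.LiesOverPrime (qv i) →
        ∀ φ : AlgebraicClosure ℚ ≃ₐ[ℚ] AlgebraicClosure ℚ, P.IsFrobeniusAt φ (qv i) →
          ∃ α β : ResidueField 𝒪, α ≠ β ∧ LinearMap.charpoly (ρbar.ρ φ) = (X - C α) * (X - C β)) ∧
      ∀ DQ : GaloisRep.DeformationRingData 𝒪 ρbar (fun _A _ _ _ ρ =>
          GaloisRep.strictOrdinaryCondition 𝒪 p (Smin ∪ Finset.univ.image qv) ρ ∧
            ∀ q ∈ Smin, q.Prime → q ≠ p → ρ.IsUnipotentOnInertiaAt q),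
        ∃ γ : MvPowerSeries (Fin r) 𝒪 →ₐ[𝒪] DQ.R, Function.Surjective γ) ∧
    (∃ r : ℕ, ∀ n : ℕ, ∃ qv : Fin r → ℕ, Function.Injective qv ∧
      (∀ i, (qv i).Prime ∧ qv i ∉ S ∧ p ^ (n + 1) ∣ qv i - 1) ∧
      (∀ i, ∀ P : ValuationSubring (AlgebraicClosure ℚ), P.LiesOverPrime (qv i) →
        ∀ φ : AlgebraicClosure ℚ ≃ₐ[ℚ] AlgebraicClosure ℚ, P.IsFrobeniusAt φ (qv i) →
          ∃ α β : ResidueField 𝒪, α ≠ β ∧ LinearMap.charpoly (ρbar.ρ φ) = (X - C α) * (X - C β)) ∧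
      ∀ DQ : GaloisRep.DeformationRingData 𝒪 ρbar (fun _A _ _ _ ρ =>
          GaloisRep.flatCondition 𝒪 p (Smin ∪ Finset.univ.image qv) ρ ∧
            ∀ q ∈ Smin, q.Prime → q ≠ p → ρ.IsUnipotentOnInertiaAt q),
        ∃ γ : MvPowerSeries (Fin r) 𝒪 →ₐ[𝒪] DQ.R, Function.Surjective γ) := by
  letI := algebraResidueField p hp𝒪
  let b : Module.Basis (Fin 2) (ResidueField 𝒪) ρbar.V :=
    Module.finBasisOfFinrankEq (ResidueField 𝒪) ρbar.V ρbar.finrank_eq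
  obtain ⟨Sig, hSig, htate⟩ := hR1 b
  exact s56_of_selmerBounds p ρbar b S Smin
    (coreSO_of_htate p ρbar b hp2 hp𝒪 habs hdet hsplit hTW S Smin hpSmin hSmin hmin Sig hSig
      htate)
    (coreFL_of_htate_hlocp p ρbar b hp2 hp𝒪 habs hdet hsplit hTW S Smin hpSmin hSmin hmin Sig
      hSig htate (hR3FL b))

end S56

end Fermat.Agent.GP.Core.Generic
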