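/-
GATE-P / S56 [CORE] (helper55): **the FROZEN statement S56 from the two residual nodes in the
shapes their owners produce.**

* (R1) `hbase : R1Wrap.BaseHyp p` (helper71; `ρbar`-free: for every finite Galois `F ∋ ζ_p`
  unramified outside `T ∋ p` with `X(T,F) = 0` and `Ш² = 0`, `BaseCase T G_F`) — consumed through
  helper71 `R1Wrap.exists_sigma_htate_adBar` (`S₀ :=` the primes of `Smin`);
* (R3-FL) the flat local condition at `p`, with the hypothesis `ρbar` FLAT available (the shape of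
  helper44 `FlatHlocp.hlocp_flat_of_ends`); the degenerate branch (`ρbar` not flat ⟹ no flat
  first-order lift) is closed here by helper64 `Wlog.selmerBound_FL_wlog`.
NEW file; imports only.
-/
import Mathlib
import Fermat.Agent.GP.Core.CoreGeneric
import Fermat.Agent.GP.Core.Wlog
import Fermat.Agent.GP.GW.Euler.R1Wrap

set_option autoImplicit false
set_option linter.unusedSectionVars false
set_option linter.style.haveILetI false

namespace Fermat.Agent.GP.Core.Final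

open IsLocalRing Fermat.Agent.S53_helper35 Matrix Fermat.Agent.GP.Tan.Cocycle
  Fermat.Agent.GP.Tan.TanTop Fermat.Agent.GP.Tan.SelmerFrozen Fermat.Agent.GP.Tan.SelmerCard
  Fermat.Agent.GC.Prof Fermat.Agent.GC.Places
  Fermat.Agent.GC.Local.KR Fermat.Agent.GC.C0
  Fermat.Agent.GP.GW groupCohomology ExtCitation Module Polynomial
  Fermat.Agent.GP.Bridge.Ad0 Fermat.Agent.GP.Core Fermat.Agent.GP.Core.Generic
  Fermat.Agent.GP.GW.Euler.R1Wrap

local instance factPrimeFinal (q : Nat.Primes) : Fact ((q : ℕ).Prime) := ⟨q.2⟩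

/-- **The frozen statement S56 from `BaseHyp p` (R1) and the flat local condition at `p` for a
flat `ρbar` (R3-FL).** -/
theorem s56_of_baseHyp_hlocpFlat
    {𝒪 : Type} [CommRing 𝒪] [IsDomain 𝒪] [IsDiscreteValuationRing 𝒪]
    [IsAdicComplete (maximalIdeal 𝒪) 𝒪] [Finite (ResidueField 𝒪)]
    (p : ℕ) [Fact p.Prime] (hp2 : p ≠ 2) (hp𝒪 : (p : 𝒪) ∈ maximalIdeal 𝒪)
    (ρbar : ResidualGaloisRep (ResidueField 𝒪))
    (habs : ρbar.IsAbsolutelyIrreducible)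
    (hdet : (GaloisRepAdic.ofResidualGaloisRep ρbar).DetIsCyclotomic p)
    (hsplit : ∀ σ : AlgebraicClosure ℚ ≃ₐ[ℚ] AlgebraicClosure ℚ,
      ∃ α β : ResidueField 𝒪, LinearMap.charpoly (ρbar.ρ σ) = (X - C α) * (X - C β))
    (hTW : ∀ (K : Type) [Field K] [Algebra (ResidueField 𝒪) K]
      (G : Subgroup (AlgebraicClosure ℚ ≃ₐ[ℚ] AlgebraicClosure ℚ)), G.index = 2 →
      ∀ V : Submodule K (ρbar.baseChange K).V,
        (∀ σ ∈ G, ∀ x ∈ V, (ρbar.baseChange K).ρ σ x ∈ V) → V = ⊥ ∨ V = ⊤)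
    (S Smin : Finset ℕ) (hpSmin : p ∈ Smin) (hSmin : Smin ⊆ S) (hS : ∀ q ∈ S, q.Prime)
    (hmin : ∀ q : ℕ, q.Prime → q ≠ p → (q ∈ Smin ↔ ¬ ρbar.IsUnramifiedAt q))
    (hbase : BaseHyp p)
    (hR3FL : letI := algebraResidueField p hp𝒪
      (GaloisRepAdic.ofResidualGaloisRep ρbar).IsFlatAt p →
      ∀ (b : Module.Basis (Fin 2) (ResidueField 𝒪) ρbar.V)
        (hdloc : ∀ q : Nat.Primes,
          IsDiscrete (levelQ (q : ℕ)) (Rep.res (localGaloisToGlobal (q : ℕ)) (adBar p ρbar b)))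
        (q : Nat.Primes), (q : ℕ) = p →
        @LocalCond 𝒪 _ _ ρbar b p _ (adBar p ρbar b) (emb p (toMatRes ρbar b) 1) (q : ℕ) _
          (hdloc q) (fun ρ => ρ.DetIsCyclotomic p ∧ ρ.IsFlatAt p)
          (finrank (ZMod p) (ResidueField 𝒪))) :
    (∃ r : ℕ, ∀ n : ℕ, ∃ qv : Fin r → ℕ, Function.Injective qv ∧
      (∀ i, (qv i).Prime ∧ qv i ∉ S ∧ p ^ (n + 1) ∣ qv i - 1) ∧
      (∀ i, ∀ P : ValuationSubring (AlgebraicClosure ℚ), P.LiesOverPrime (qv i) →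
        ∀ φ : AlgebraicClosure ℚ ≃ₐ[ℚ] AlgebraicClosure ℚ, P.IsFrobeniusAt φ (qv i) →
          ∃ α β : ResidueField 𝒪, α ≠ β ∧ LinearMap.charpoly (ρbar.ρ φ) = (X - C α) * (X - C β)) ∧
      ∀ DQ : GaloisRep.DeformationRingData 𝒪 ρbar (fun _A _ _ _ ρ =>
          GaloisRep.strictOrdinaryCondition 𝒪 p (Smin ∪ Finset.univ.image qv) ρ ∧
            ∀ q ∈ Smin, q.Prime → q ≠ p → ρ.IsUnipotentOnInertiaAt q),
        ∃ γ : MvPowerSeries (Fin r) 𝒪 →ₐ[𝒪] DQ.R, Function.Surjective γ) ∧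
    (∃ r : ℕ, ∀ n : ℕ, ∃ qv : Fin r → ℕ, Function.Injective qv ∧
      (∀ i, (qv i).Prime ∧ qv i ∉ S ∧ p ^ (n + 1) ∣ qv i - 1) ∧
      (∀ i, ∀ P : ValuationSubring (AlgebraicClosure ℚ), P.LiesOverPrime (qv i) →
        ∀ φ : AlgebraicClosure ℚ ≃ₐ[ℚ] AlgebraicClosure ℚ, P.IsFrobeniusAt φ (qv i) →
          ∃ α β : ResidueField 𝒪, α ≠ β ∧ LinearMap.charpoly (ρbar.ρ φ) = (X - C α) * (X - C β)) ∧
      ∀ DQ : GaloisRep.DeformationRingData 𝒪 ρbar (fun _A _ _ _ ρ =>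
          GaloisRep.flatCondition 𝒪 p (Smin ∪ Finset.univ.image qv) ρ ∧
            ∀ q ∈ Smin, q.Prime → q ≠ p → ρ.IsUnipotentOnInertiaAt q),
        ∃ γ : MvPowerSeries (Fin r) 𝒪 →ₐ[𝒪] DQ.R, Function.Surjective γ) := by
  letI := algebraResidueField p hp𝒪
  let b : Module.Basis (Fin 2) (ResidueField 𝒪) ρbar.V :=
    Module.finBasisOfFinrankEq (ResidueField 𝒪) ρbar.V ρbar.finrank_eq
  -- (R1) at `S₀ :=` the primes of `Smin`
  have hpS₀ : pPrime p ∈ primesIn Smin := mem_primesIn.2 hpSmin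
  have hur : ∀ q : Nat.Primes, q ∉ primesIn Smin → ρbar.IsUnramifiedAt (q : ℕ) :=
    Fermat.Agent.GP.Tan.SelmerAd0.unramified_outside_of_hmin p ρbar Smin hpSmin hmin
      (primesIn Smin) (fun q hq => mem_primesIn.2 hq)
  obtain ⟨Sig, hSigsub, htate⟩ :=
    exists_sigma_htate_adBar ρbar b hp2 (primesIn Smin) hpS₀ hur ∅ hbase
  have hSig : ∀ q : Nat.Primes, (q : ℕ) ∈ Smin → q ∈ Sig := fun q hq =>
    hSigsub (Finset.mem_union_left _ (mem_primesIn.2 hq))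
  have hSO := coreSO_of_htate p ρbar b hp2 hp𝒪 habs hdet hsplit hTW S Smin hpSmin hSmin hmin
    Sig hSig htate
  refine s56_of_selmerBounds p ρbar b S Smin hSO ?_
  by_cases hflat : (GaloisRepAdic.ofResidualGaloisRep ρbar).IsFlatAt p
  · exact coreFL_of_htate_hlocp p ρbar b hp2 hp𝒪 habs hdet hsplit hTW S Smin hpSmin hSmin hmin
      Sig hSig htate (hR3FL hflat b)
  · -- degenerate branch: `ρbar` not flat ⟹ no flat first-order lift
    obtain ⟨r, hr⟩ := hSO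
    refine ⟨r, fun n => ?_⟩
    obtain ⟨qv, h1, h2, h3, -⟩ := hr n
    exact ⟨qv, h1, h2, h3,
      Fermat.Agent.GP.Core.Wlog.selmerBound_FL_wlog b p Smin (Finset.univ.image qv)
        (fun hc => absurd hc.1.2.1 hflat)⟩

end Fermat.Agent.GP.Core.Final
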