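/-
GATE-P / S56 CORE, instantiation layer (helper39, asked by helper35, board 4260):
**`GP/Core/CoreAsm.selmerBounds_base_of_nodes` at the concrete model `N := adBar p ρbar b`**
(helper94 `GP/Bridge/Ad0RepInst`), with every closed binder discharged from the FROZEN hypotheses
of S56:

* `hinj hsurj hact`  : helper94 `Ad0.emb_injective / emb_surjective / emb_ρ_one`;
* `hdT`              : `isDiscrete_TChi` (`p ∈ Σ`);
* `hdN`              : helper94 `isDiscrete_adBar` + helper11 `unramified_outside_of_hmin` (frozen `hmin`);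
* `hdNs`             : helper19 `NineTermQ.isDiscrete_dual`;
* `hdloc`            : `isDiscrete_res_localGaloisToGlobal Σ q`;
* `hPT`              : helper59 `nonempty_ptData`;
* `hpre`             : helper19 `NineTermFinal.preEuler_holds`;
* `hH0`              : helper94 `finrank_Hlc_zero_adBar` (frozen `habs`, `p ≠ 2`);
* `hconj`            : helper94 `finrank_ker_conj_adBar` (frozen `hdet`);
* `d`, `hk`          : `d := finrank (ZMod p) k`, helper11 `natCard_eq_pow_finrank_zmod`;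
* `hlocSmin hlocUnr` : helper32 `SminHlc.hlocSmin_of_hmin / hlocUnr_all`;
* `hlocQ`            : helper67 `TWQFinrank.hlocQ_adBar`;
* `hlocp` (strict)   : helper79 `StrictOrdLocalCond.localCond_strict`.

What stays as binders are exactly the OPEN NODES:
`htate` (Tate's inequality for `ad⁰ρ̄(1)`, [P-GW] E-MAIN), `hTWK` ([P-TW] + kill, helper49 CZKILL),
and for the flat conjunct `hlocp` ([P-FLAT]).
-/
import Fermat.Agent.GP.Core.CoreAsm
import Fermat.Agent.GP.Bridge.Ad0RepH0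
import Fermat.Agent.GP.Bridge.Ad0RepPlug
import Fermat.Agent.GP.GW.NineTermFinal
import Fermat.Agent.GP.Tan.SelmerAd0
import Fermat.Agent.GP.Loc.StrictOrdLocalCondCore
import Fermat.Agent.GP.Loc.SminLocalCondPlug
import Fermat.Agent.GP.Loc.TWQFinrank

set_option autoImplicit false
set_option linter.unusedSectionVars false
set_option linter.style.haveILetI false

namespace Fermat.Agent.GP.Core

open IsLocalRing Fermat.Agent.S53_helper35 Matrix Fermat.Agent.GP.Tan.Cocycle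
  Fermat.Agent.GP.Tan.TanTop Fermat.Agent.GP.Tan.SelmerFrozen Fermat.Agent.GP.Tan.SelmerCard
  Fermat.Agent.GC.Prof Fermat.Agent.GC.Prof.Cone Fermat.Agent.GC.Places
  Fermat.Agent.GC.Local.KR Fermat.Agent.GC.PT.LocDataQ Fermat.Agent.GC.C0
  Fermat.Agent.GP.GW groupCohomology ExtCitation Module Polynomial
  Fermat.Agent.GP.Bridge.Ad0

local instance factPrimeCoreInst (q : Nat.Primes) : Fact ((q : ℕ).Prime) := ⟨q.2⟩

section Inst

variable {𝒪 : Type} [CommRing 𝒪] [IsLocalRing 𝒪] [Finite (ResidueField 𝒪)]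
  (p : ℕ) [Fact p.Prime] [Algebra (ZMod p) (ResidueField 𝒪)]
  (ρbar : ResidualGaloisRep (ResidueField 𝒪))
  (b : Module.Basis (Fin 2) (ResidueField 𝒪) ρbar.V)

/-- `ρ̄` is unramified outside every `S' ⊇ Σ ⊇ primes of Smin` (frozen `hmin`). -/
theorem unramified_outside_of_hSig (Smin : Finset ℕ) (hpSmin : p ∈ Smin)
    (hmin : ∀ q : ℕ, q.Prime → q ≠ p → (q ∈ Smin ↔ ¬ ρbar.IsUnramifiedAt q))
    (Sig : Finset Nat.Primes) (hSig : ∀ q : Nat.Primes, (q : ℕ) ∈ Smin → q ∈ Sig)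
    (S' : Finset Nat.Primes) (hS' : Sig ⊆ S') :
    ∀ q : Nat.Primes, q ∉ S' → ρbar.IsUnramifiedAt (q : ℕ) :=
  Fermat.Agent.GP.Tan.SelmerAd0.unramified_outside_of_hmin p ρbar Smin hpSmin hmin S'
    (fun q hq => hS' (hSig q hq))

/-- `ad⁰ρ̄` is discrete at every level `S' ⊇ Σ ⊇ primes of Smin` (frozen `hmin`). -/
theorem isDiscrete_adBar_of_hmin (Smin : Finset ℕ) (hpSmin : p ∈ Smin)
    (hmin : ∀ q : ℕ, q.Prime → q ≠ p → (q ∈ Smin ↔ ¬ ρbar.IsUnramifiedAt q))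
    (Sig : Finset Nat.Primes) (hSig : ∀ q : Nat.Primes, (q : ℕ) ∈ Smin → q ∈ Sig)
    (S' : Finset Nat.Primes) (hS' : Sig ⊆ S') :
    IsDiscrete (levelS S') (adBar p ρbar b) :=
  isDiscrete_adBar p ρbar b S'
    (unramified_outside_of_hSig p ρbar Smin hpSmin hmin Sig hSig S' hS')

theorem pPrime_mem_of_hSig (Smin : Finset ℕ) (hpSmin : p ∈ Smin)
    (Sig : Finset Nat.Primes) (hSig : ∀ q : Nat.Primes, (q : ℕ) ∈ Smin → q ∈ Sig) :
    pPrime p ∈ Sig :=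
  hSig (pPrime p) hpSmin

/-- the local discreteness family `hdloc` of `CoreAsm` for `N := adBar p ρbar b`. -/
theorem isDiscrete_res_adBar_of_hmin (Smin : Finset ℕ) (hpSmin : p ∈ Smin)
    (hmin : ∀ q : ℕ, q.Prime → q ≠ p → (q ∈ Smin ↔ ¬ ρbar.IsUnramifiedAt q))
    (Sig : Finset Nat.Primes) (hSig : ∀ q : Nat.Primes, (q : ℕ) ∈ Smin → q ∈ Sig)
    (q : Nat.Primes) :
    IsDiscrete (levelQ (q : ℕ)) (Rep.res (localGaloisToGlobal (q : ℕ)) (adBar p ρbar b)) :=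
  haveI := isDiscrete_adBar_of_hmin p ρbar b Smin hpSmin hmin Sig hSig Sig (Finset.Subset.refl _)
  isDiscrete_res_localGaloisToGlobal Sig (q : ℕ) (adBar p ρbar b)

/-- **CORE at `N := adBar p ρbar b`**: the hypothesis `hS` / `hF` of helper11's
`TanTop.s56_of_selmerBounds` for a frozen-shaped base condition, from the frozen hypotheses of S56
and the open nodes `htate`, `hTWK`, `hlocp`. -/
theorem selmerBounds_base_adBar
    (hp2 : p ≠ 2) (hp𝒪 : (p : 𝒪) ∈ maximalIdeal 𝒪)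
    (habs : ρbar.IsAbsolutelyIrreducible)
    (hdet : (GaloisRepAdic.ofResidualGaloisRep ρbar).DetIsCyclotomic p)
    (S Smin : Finset ℕ) (hpSmin : p ∈ Smin) (hSmin : Smin ⊆ S)
    (hmin : ∀ q : ℕ, q.Prime → q ≠ p → (q ∈ Smin ↔ ¬ ρbar.IsUnramifiedAt q))
    (base : Finset ℕ → ∀ ⦃A : Type⦄ [CommRing A] [IsLocalRing A] [Algebra 𝒪 A],
      GaloisRepAdic A → Prop)
    (hbase : BaseGlobal 𝒪 p base)
    (Pp : GaloisRepAdic (DualNumber (ResidueField 𝒪)) → Prop)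
    (hbaseP : ∀ (T : Finset ℕ) (ρ : GaloisRepAdic (DualNumber (ResidueField 𝒪))),
      base T ρ → Pp ρ)
    (Sig : Finset Nat.Primes) (hSig : ∀ q : Nat.Primes, (q : ℕ) ∈ Smin → q ∈ Sig)
    -- OPEN NODE [P-GW] E-MAIN
    (htate : ∀ (S' : Finset Nat.Primes)
      [IsDiscrete (levelS S') ((adBar p ρbar b).dualTwist (cycloChar p))],
      Sig ⊆ S' → TateLe S' ((adBar p ρbar b).dualTwist (cycloChar p)))
    -- OPEN NODE [P-TW] + kill
    (r : ℕ)
    (hTWK : ∀ n : ℕ, ∃ qv : Fin r → ℕ, Function.Injective qv ∧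
      (∀ i, (qv i).Prime ∧ qv i ∉ S ∧ p ^ (n + 1) ∣ qv i - 1) ∧
      (∀ i, ∀ P : ValuationSubring (AlgebraicClosure ℚ), P.LiesOverPrime (qv i) →
        ∀ φ : AlgebraicClosure ℚ ≃ₐ[ℚ] AlgebraicClosure ℚ, P.IsFrobeniusAt φ (qv i) →
          ∃ α β : ResidueField 𝒪, α ≠ β ∧
            LinearMap.charpoly (ρbar.ρ φ) = (X - C α) * (X - C β)) ∧
      (∀ i, ∀ q ∈ Sig, ((q : Nat.Primes) : ℕ) ≠ qv i) ∧
      ∀ [IsDiscrete (levelS (levelOfTW Sig qv)) (TChi p)]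
        [IsDiscrete (levelS (levelOfTW Sig qv)) (adBar p ρbar b)]
        [IsDiscrete (levelS (levelOfTW Sig qv)) ((adBar p ρbar b).dualTwist (cycloChar p))]
        (Δ : PTData (p := p) (levelOfTW Sig qv))
        (L : ∀ v, Submodule (ZMod p) (Hloc (levelOfTW Sig qv) (adBar p ρbar b) v 1)),
        (∀ v : ↥(levelOfTW Sig qv),
          ((v : Nat.Primes) : ℕ) ∈ Finset.univ.image qv → L v = ⊤) →
        dualSelmerGrp (adBar p ρbar b) Δ L = ⊥)
    -- OPEN NODE: the local adapter at `p`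
    (hlocp : ∀ [IsDiscrete (levelQ p) (Rep.res (localGaloisToGlobal p) (adBar p ρbar b))],
      LocalCond ρbar b p (adBar p ρbar b) (emb p (toMatRes ρbar b) 1) p Pp
        (finrank (ZMod p) (ResidueField 𝒪))) :
    ∃ r : ℕ, ∀ n : ℕ, ∃ qv : Fin r → ℕ, Function.Injective qv ∧
      (∀ i, (qv i).Prime ∧ qv i ∉ S ∧ p ^ (n + 1) ∣ qv i - 1) ∧
      (∀ i, ∀ P : ValuationSubring (AlgebraicClosure ℚ), P.LiesOverPrime (qv i) →
        ∀ φ : AlgebraicClosure ℚ ≃ₐ[ℚ] AlgebraicClosure ℚ, P.IsFrobeniusAt φ (qv i) →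
          ∃ α β : ResidueField 𝒪, α ≠ β ∧
            LinearMap.charpoly (ρbar.ρ φ) = (X - C α) * (X - C β)) ∧
      SelmerBound 𝒪 ρbar b (fun _A _ _ _ ρ =>
        base (Smin ∪ Finset.univ.image qv) ρ ∧
          ∀ q ∈ Smin, q.Prime → q ≠ p → ρ.IsUnipotentOnInertiaAt q) r := by
  haveI : CharP (ResidueField 𝒪) p := charP_residueField p hp𝒪
  have h2 : (2 : ResidueField 𝒪) ≠ 0 := two_ne_zero_residueField p hp𝒪 hp2
  have hpSig : pPrime p ∈ Sig := pPrime_mem_of_hSig p Smin hpSmin Sig hSig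
  have hdN : ∀ S' : Finset Nat.Primes, Sig ⊆ S' → IsDiscrete (levelS S') (adBar p ρbar b) :=
    fun S' hS' => isDiscrete_adBar_of_hmin p ρbar b Smin hpSmin hmin Sig hSig S' hS'
  have hdT : ∀ S' : Finset Nat.Primes, Sig ⊆ S' → IsDiscrete (levelS S') (TChi p) :=
    fun S' hS' => isDiscrete_TChi S' (hS' hpSig)
  have hdNs : ∀ S' : Finset Nat.Primes, Sig ⊆ S' →
      IsDiscrete (levelS S') ((adBar p ρbar b).dualTwist (cycloChar p)) := fun S' hS' =>
    haveI := hdN S' hS'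
    NineTermQ.isDiscrete_dual (hS' hpSig) (adBar p ρbar b)
  have hdloc : ∀ q : Nat.Primes,
      IsDiscrete (levelQ (q : ℕ)) (Rep.res (localGaloisToGlobal (q : ℕ)) (adBar p ρbar b)) :=
    isDiscrete_res_adBar_of_hmin p ρbar b Smin hpSmin hmin Sig hSig
  have hk : Nat.card (ResidueField 𝒪) = p ^ finrank (ZMod p) (ResidueField 𝒪) :=
    natCard_eq_pow_finrank_zmod p (ResidueField 𝒪)
  have hinj := emb_injective p (toMatRes ρbar b) 1
  have hsurj := emb_surjective p (toMatRes ρbar b) 1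
  have hact := emb_ρ_one p (toMatRes ρbar b)
  have hur : ∀ q : Nat.Primes, q ∉ Sig → ρbar.IsUnramifiedAt (q : ℕ) :=
    unramified_outside_of_hSig p ρbar Smin hpSmin hmin Sig hSig Sig (Finset.Subset.refl _)
  refine selmerBounds_base_of_nodes ρbar b p base hbase (adBar p ρbar b)
    (emb p (toMatRes ρbar b) 1) hinj hsurj hact hp2 h2 S Smin hpSmin hSmin Sig hSig
    (finrank (ZMod p) (ResidueField 𝒪)) hk Pp hbaseP hdT hdN hdNs hdloc
    (fun S' _ hS' => nonempty_ptData hp2 S' (hS' hpSig))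
    (fun S' _ _ _ hS' Δ L => NineTermFinal.preEuler_holds Δ (hS' hpSig) (adBar p ρbar b) L)
    htate
    (fun S' _ _ => finrank_Hlc_zero_adBar p ρbar b S' habs h2)
    (le_of_eq (finrank_ker_conj_adBar p ρbar b hp2 hdet).symm)
    r hTWK ?_
    (Fermat.Agent.GP.Loc.SminHlc.hlocSmin_of_hmin ρbar b p (adBar p ρbar b)
      (emb p (toMatRes ρbar b) 1) hinj hsurj hact hdloc hp2 Smin hmin)
    (fun q _ _ _ => Fermat.Agent.GP.Loc.SminHlc.hlocUnr_all ρbar b p (adBar p ρbar b)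
      (emb p (toMatRes ρbar b) 1) hinj hdloc q)
    (Fermat.Agent.GP.Loc.TWQFinrank.hlocQ_adBar p ρbar b S (hSmin hpSmin) Sig hur hdloc hk)
  · intro q hq
    obtain rfl : q = pPrime p := Subtype.ext hq
    exact @hlocp (hdloc (pPrime p))

/-- **`coreSO`**: the hypothesis `hS` of `TanTop.s56_of_selmerBounds` (strictly ordinary
conjunct of the frozen S56) from the frozen hypotheses and the open nodes `htate`, `hTWK`. -/
theorem coreSO
    (hp2 : p ≠ 2) (hp𝒪 : (p : 𝒪) ∈ maximalIdeal 𝒪)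
    (habs : ρbar.IsAbsolutelyIrreducible)
    (hdet : (GaloisRepAdic.ofResidualGaloisRep ρbar).DetIsCyclotomic p)
    (S Smin : Finset ℕ) (hpSmin : p ∈ Smin) (hSmin : Smin ⊆ S)
    (hmin : ∀ q : ℕ, q.Prime → q ≠ p → (q ∈ Smin ↔ ¬ ρbar.IsUnramifiedAt q))
    (Sig : Finset Nat.Primes) (hSig : ∀ q : Nat.Primes, (q : ℕ) ∈ Smin → q ∈ Sig)
    (htate : ∀ (S' : Finset Nat.Primes)
      [IsDiscrete (levelS S') ((adBar p ρbar b).dualTwist (cycloChar p))],
      Sig ⊆ S' → TateLe S' ((adBar p ρbar b).dualTwist (cycloChar p)))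
    (r : ℕ)
    (hTWK : ∀ n : ℕ, ∃ qv : Fin r → ℕ, Function.Injective qv ∧
      (∀ i, (qv i).Prime ∧ qv i ∉ S ∧ p ^ (n + 1) ∣ qv i - 1) ∧
      (∀ i, ∀ P : ValuationSubring (AlgebraicClosure ℚ), P.LiesOverPrime (qv i) →
        ∀ φ : AlgebraicClosure ℚ ≃ₐ[ℚ] AlgebraicClosure ℚ, P.IsFrobeniusAt φ (qv i) →
          ∃ α β : ResidueField 𝒪, α ≠ β ∧
            LinearMap.charpoly (ρbar.ρ φ) = (X - C α) * (X - C β)) ∧
      (∀ i, ∀ q ∈ Sig, ((q : Nat.Primes) : ℕ) ≠ qv i) ∧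
      ∀ [IsDiscrete (levelS (levelOfTW Sig qv)) (TChi p)]
        [IsDiscrete (levelS (levelOfTW Sig qv)) (adBar p ρbar b)]
        [IsDiscrete (levelS (levelOfTW Sig qv)) ((adBar p ρbar b).dualTwist (cycloChar p))]
        (Δ : PTData (p := p) (levelOfTW Sig qv))
        (L : ∀ v, Submodule (ZMod p) (Hloc (levelOfTW Sig qv) (adBar p ρbar b) v 1)),
        (∀ v : ↥(levelOfTW Sig qv),
          ((v : Nat.Primes) : ℕ) ∈ Finset.univ.image qv → L v = ⊤) →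
        dualSelmerGrp (adBar p ρbar b) Δ L = ⊥) :
    ∃ r : ℕ, ∀ n : ℕ, ∃ qv : Fin r → ℕ, Function.Injective qv ∧
      (∀ i, (qv i).Prime ∧ qv i ∉ S ∧ p ^ (n + 1) ∣ qv i - 1) ∧
      (∀ i, ∀ P : ValuationSubring (AlgebraicClosure ℚ), P.LiesOverPrime (qv i) →
        ∀ φ : AlgebraicClosure ℚ ≃ₐ[ℚ] AlgebraicClosure ℚ, P.IsFrobeniusAt φ (qv i) →
          ∃ α β : ResidueField 𝒪, α ≠ β ∧
            LinearMap.charpoly (ρbar.ρ φ) = (X - C α) * (X - C β)) ∧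
      SelmerBound 𝒪 ρbar b (fun _A _ _ _ ρ =>
        GaloisRep.strictOrdinaryCondition 𝒪 p (Smin ∪ Finset.univ.image qv) ρ ∧
          ∀ q ∈ Smin, q.Prime → q ≠ p → ρ.IsUnipotentOnInertiaAt q) r :=
  selmerBounds_base_adBar p ρbar b hp2 hp𝒪 habs hdet S Smin hpSmin hSmin hmin
    (GaloisRep.strictOrdinaryCondition 𝒪 p) (baseGlobal_strictOrdinary 𝒪 p)
    (fun ρ => ρ.DetIsCyclotomic p ∧ ρ.IsStrictOrdinaryAt p) (fun _T _ρ h => ⟨h.1, h.2.1⟩)
    Sig hSig htate r hTWK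
    (Fermat.Agent.GP.Loc.StrictOrdLocalCond.localCond_strict ρbar b p (adBar p ρbar b)
      (emb p (toMatRes ρbar b) 1) hp2 hp𝒪 (emb_injective p _ 1) (emb_surjective p _ 1)
      (emb_ρ_one p _) (finrank (ZMod p) (ResidueField 𝒪))
      (natCard_eq_pow_finrank_zmod p (ResidueField 𝒪)))

/-- **`coreFL`**: the hypothesis `hF` of `TanTop.s56_of_selmerBounds` (flat conjunct of the frozen
S56) from the frozen hypotheses and the open nodes `htate`, `hTWK`, `hlocp` (flat). -/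
theorem coreFL
    (hp2 : p ≠ 2) (hp𝒪 : (p : 𝒪) ∈ maximalIdeal 𝒪)
    (habs : ρbar.IsAbsolutelyIrreducible)
    (hdet : (GaloisRepAdic.ofResidualGaloisRep ρbar).DetIsCyclotomic p)
    (S Smin : Finset ℕ) (hpSmin : p ∈ Smin) (hSmin : Smin ⊆ S)
    (hmin : ∀ q : ℕ, q.Prime → q ≠ p → (q ∈ Smin ↔ ¬ ρbar.IsUnramifiedAt q))
    (Sig : Finset Nat.Primes) (hSig : ∀ q : Nat.Primes, (q : ℕ) ∈ Smin → q ∈ Sig)
    (htate : ∀ (S' : Finset Nat.Primes)
      [IsDiscrete (levelS S') ((adBar p ρbar b).dualTwist (cycloChar p))],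
      Sig ⊆ S' → TateLe S' ((adBar p ρbar b).dualTwist (cycloChar p)))
    (r : ℕ)
    (hTWK : ∀ n : ℕ, ∃ qv : Fin r → ℕ, Function.Injective qv ∧
      (∀ i, (qv i).Prime ∧ qv i ∉ S ∧ p ^ (n + 1) ∣ qv i - 1) ∧
      (∀ i, ∀ P : ValuationSubring (AlgebraicClosure ℚ), P.LiesOverPrime (qv i) →
        ∀ φ : AlgebraicClosure ℚ ≃ₐ[ℚ] AlgebraicClosure ℚ, P.IsFrobeniusAt φ (qv i) →
          ∃ α β : ResidueField 𝒪, α ≠ β ∧
            LinearMap.charpoly (ρbar.ρ φ) = (X - C α) * (X - C β)) ∧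
      (∀ i, ∀ q ∈ Sig, ((q : Nat.Primes) : ℕ) ≠ qv i) ∧
      ∀ [IsDiscrete (levelS (levelOfTW Sig qv)) (TChi p)]
        [IsDiscrete (levelS (levelOfTW Sig qv)) (adBar p ρbar b)]
        [IsDiscrete (levelS (levelOfTW Sig qv)) ((adBar p ρbar b).dualTwist (cycloChar p))]
        (Δ : PTData (p := p) (levelOfTW Sig qv))
        (L : ∀ v, Submodule (ZMod p) (Hloc (levelOfTW Sig qv) (adBar p ρbar b) v 1)),
        (∀ v : ↥(levelOfTW Sig qv),
          ((v : Nat.Primes) : ℕ) ∈ Finset.univ.image qv → L v = ⊤) →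
        dualSelmerGrp (adBar p ρbar b) Δ L = ⊥)
    (hlocp : ∀ [IsDiscrete (levelQ p) (Rep.res (localGaloisToGlobal p) (adBar p ρbar b))],
      LocalCond ρbar b p (adBar p ρbar b) (emb p (toMatRes ρbar b) 1) p
        (fun ρ => ρ.DetIsCyclotomic p ∧ ρ.IsFlatAt p) (finrank (ZMod p) (ResidueField 𝒪))) :
    ∃ r : ℕ, ∀ n : ℕ, ∃ qv : Fin r → ℕ, Function.Injective qv ∧
      (∀ i, (qv i).Prime ∧ qv i ∉ S ∧ p ^ (n + 1) ∣ qv i - 1) ∧
      (∀ i, ∀ P : ValuationSubring (AlgebraicClosure ℚ), P.LiesOverPrime (qv i) →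
        ∀ φ : AlgebraicClosure ℚ ≃ₐ[ℚ] AlgebraicClosure ℚ, P.IsFrobeniusAt φ (qv i) →
          ∃ α β : ResidueField 𝒪, α ≠ β ∧
            LinearMap.charpoly (ρbar.ρ φ) = (X - C α) * (X - C β)) ∧
      SelmerBound 𝒪 ρbar b (fun _A _ _ _ ρ =>
        GaloisRep.flatCondition 𝒪 p (Smin ∪ Finset.univ.image qv) ρ ∧
          ∀ q ∈ Smin, q.Prime → q ≠ p → ρ.IsUnipotentOnInertiaAt q) r :=
  selmerBounds_base_adBar p ρbar b hp2 hp𝒪 habs hdet S Smin hpSmin hSmin hmin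
    (GaloisRep.flatCondition 𝒪 p) (baseGlobal_flat 𝒪 p)
    (fun ρ => ρ.DetIsCyclotomic p ∧ ρ.IsFlatAt p) (fun _T _ρ h => ⟨h.1, h.2.1⟩)
    Sig hSig htate r hTWK hlocp

end Inst

end Fermat.Agent.GP.Core
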