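/-
GATE-P / S56 [CORE]/[TOP] (helper35, CORE owner): **the frozen statement S56 from its LAST open
leaves, in the shapes in which their owners produce them** (plug-test of the whole chain, compiled):

* `(R1)`    `hKey : KeyLeavesHyp p`  (helper66 `GP/GW/Euler/BaseHypOfLeaves`: `(H2q) ∧ (UNITq)` for
  every pair `(F, T)`), consumed by `exists_sigma_htate_adBar_of_keyLeaves` with
  `S₀ := primesIn Smin`;
* `(R3-FL)` either as the flat `LocalCond` at `p` under the WLOG hypothesis `hflat`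
  (`s56_of_keyLeaves_flatLocalCond`; helper90 `FlatLocalCond.localCond_flat_of_branches` produces
  exactly this), or as the two branch data `hSS`, `hORD` of helper44 `FlatHlocp.hlocp_flat_of_ends`
  (`s56_of_keyLeaves_ends`), again under `hflat`.

The WLOG `hflat` is removed by `CoreInstAdBar.hlocp_flat_wlog`; the top is helper55's
`CoreGeneric.s56_of_R1_R3FL`.  The `𝔽_p`-algebra structure on the residue field is
`Ad0.algebraResidueField p hp𝒪` (`letI` inside the binders, as in `CoreGeneric`).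
NEW file; imports only.
-/
import Fermat.Agent.GP.Core.CoreGeneric
import Fermat.Agent.GP.Core.CoreInstAdBar
import Fermat.Agent.GP.GW.Euler.BaseHypOfLeaves
import Fermat.Agent.GP.Flat.FlatHlocp

set_option autoImplicit false
set_option linter.style.haveILetI false
open Polynomial IsLocalRing
open ResidualGaloisRep

namespace Fermat.Agent.GP.Core.S56OfLeaves

open Fermat.Agent.GP.Core Fermat.Agent.GP.Bridge.Ad0 Fermat.Agent.GP.Tan.SelmerFrozen
  Fermat.Agent.GP.Tan.SelmerCard Fermat.Agent.S53_helper35 Fermat.Agent.GP.Tan.Cocycle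
  Fermat.Agent.GC.Prof Fermat.Agent.GC.Places Fermat.Agent.GC.Local.KR
  Fermat.Agent.GP.Flat.SSHlcPinned
  Fermat.Agent.GP.Loc.StrictOrdDim Fermat.Agent.GP.Flat.OrdCount Fermat.Agent.GP.Flat.OrdHlcCond
  Fermat.Agent.GP.Flat.FlatBranchEnds Fermat.Agent.GP.Flat.FlatLocalCond

/-- **frozen S56 from `KeyLeavesHyp p` and the flat `LocalCond` at `p`** (which may assume that
`ρbar` is flat at `p`). -/
theorem s56_of_keyLeaves_flatLocalCond
    {𝒪 : Type} [CommRing 𝒪] [IsDomain 𝒪] [IsDiscreteValuationRing 𝒪]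
    [IsAdicComplete (maximalIdeal 𝒪) 𝒪] [Finite (ResidueField 𝒪)]
    (p : ℕ) [Fact p.Prime] (hp2 : p ≠ 2) (hp𝒪 : (p : 𝒪) ∈ maximalIdeal 𝒪)
    (ρbar : ResidualGaloisRep (ResidueField 𝒪))
    (habs : ρbar.IsAbsolutelyIrreducible)
    (hdet : (GaloisRepAdic.ofResidualGaloisRep ρbar).DetIsCyclotomic p)
    (hsplit : ∀ σ : AlgebraicClosure ℚ ≃ₐ[ℚ] AlgebraicClosure ℚ,
      ∃ α β : ResidueField 𝒪, LinearMap.charpoly (ρbar.ρ σ) = (X - C α) * (X - C β))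
    (hTW : ∀ (K : Type) [Field K] [Algebra (ResidueField 𝒪) K]
      (G : Subgroup (AlgebraicClosure ℚ ≃ₐ[ℚ] AlgebraicClosure ℚ)), G.index = 2 →
      ∀ V : Submodule K (ρbar.baseChange K).V,
        (∀ σ ∈ G, ∀ x ∈ V, (ρbar.baseChange K).ρ σ x ∈ V) → V = ⊥ ∨ V = ⊤)
    (S Smin : Finset ℕ) (hpSmin : p ∈ Smin) (hSmin : Smin ⊆ S) (hS : ∀ q ∈ S, q.Prime)
    (hmin : ∀ q : ℕ, q.Prime → q ≠ p → (q ∈ Smin ↔ ¬ ρbar.IsUnramifiedAt q))
    -- the open nodes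
    (hKey : Fermat.Agent.GP.GW.Euler.BaseHypOfLeaves.KeyLeavesHyp p)
    (hFL : letI := algebraResidueField p hp𝒪
      ∀ b : Module.Basis (Fin 2) (ResidueField 𝒪) ρbar.V,
        (GaloisRepAdic.ofResidualGaloisRep ρbar).IsFlatAt p →
        ∀ [IsDiscrete (levelQ p) (Rep.res (localGaloisToGlobal p) (adBar p ρbar b))],
          LocalCond ρbar b p (adBar p ρbar b) (emb p (toMatRes ρbar b) 1) p
            (fun ρ => ρ.DetIsCyclotomic p ∧ ρ.IsFlatAt p)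
            (Module.finrank (ZMod p) (ResidueField 𝒪))) :
    (∃ r : ℕ, ∀ n : ℕ, ∃ qv : Fin r → ℕ, Function.Injective qv ∧
      (∀ i, (qv i).Prime ∧ qv i ∉ S ∧ p ^ (n + 1) ∣ qv i - 1) ∧
      (∀ i, ∀ P : ValuationSubring (AlgebraicClosure ℚ), P.LiesOverPrime (qv i) →
        ∀ φ : AlgebraicClosure ℚ ≃ₐ[ℚ] AlgebraicClosure ℚ, P.IsFrobeniusAt φ (qv i) →
          ∃ α β : ResidueField 𝒪, α ≠ β ∧ LinearMap.charpoly (ρbar.ρ φ) = (X - C α) * (X - C β)) ∧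
      ∀ DQ : GaloisRep.DeformationRingData 𝒪 ρbar (fun _A _ _ _ ρ =>
          GaloisRep.strictOrdinaryCondition 𝒪 p (Smin ∪ Finset.univ.image qv) ρ ∧
            ∀ q ∈ Smin, q.Prime → q ≠ p → ρ.IsUnipotentOnInertiaAt q),
        ∃ γ : MvPowerSeries (Fin r) 𝒪 →ₐ[𝒪] DQ.R, Function.Surjective γ) ∧
    (∃ r : ℕ, ∀ n : ℕ, ∃ qv : Fin r → ℕ, Function.Injective qv ∧
      (∀ i, (qv i).Prime ∧ qv i ∉ S ∧ p ^ (n + 1) ∣ qv i - 1) ∧
      (∀ i, ∀ P : ValuationSubring (AlgebraicClosure ℚ), P.LiesOverPrime (qv i) →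
        ∀ φ : AlgebraicClosure ℚ ≃ₐ[ℚ] AlgebraicClosure ℚ, P.IsFrobeniusAt φ (qv i) →
          ∃ α β : ResidueField 𝒪, α ≠ β ∧ LinearMap.charpoly (ρbar.ρ φ) = (X - C α) * (X - C β)) ∧
      ∀ DQ : GaloisRep.DeformationRingData 𝒪 ρbar (fun _A _ _ _ ρ =>
          GaloisRep.flatCondition 𝒪 p (Smin ∪ Finset.univ.image qv) ρ ∧
            ∀ q ∈ Smin, q.Prime → q ≠ p → ρ.IsUnipotentOnInertiaAt q),
        ∃ γ : MvPowerSeries (Fin r) 𝒪 →ₐ[𝒪] DQ.R, Function.Surjective γ) := by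
  letI := algebraResidueField p hp𝒪
  have hk : Nat.card (ResidueField 𝒪) = p ^ Module.finrank (ZMod p) (ResidueField 𝒪) :=
    natCard_eq_pow_finrank_zmod p (ResidueField 𝒪)
  have hpS₀ : ExtCitation.pPrime p ∈ primesIn Smin := mem_primesIn.2 hpSmin
  have hur : ∀ q : Nat.Primes, q ∉ primesIn Smin → ρbar.IsUnramifiedAt (q : ℕ) :=
    Fermat.Agent.GP.Tan.SelmerAd0.unramified_outside_of_hmin p ρbar Smin hpSmin hmin
      (primesIn Smin) (fun q hq => mem_primesIn.2 hq)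
  refine Generic.s56_of_R1_R3FL p hp2 hp𝒪 ρbar habs hdet hsplit hTW S Smin hpSmin hSmin hS hmin
    (fun b => ?_) (fun b hdloc => ?_)
  · obtain ⟨Sig, hSig, htate⟩ :=
      Fermat.Agent.GP.GW.Euler.BaseHypOfLeaves.exists_sigma_htate_adBar_of_keyLeaves ρbar b hp2
        (primesIn Smin) hpS₀ hur ∅ hKey
    exact ⟨Sig, fun q hq => hSig (Finset.mem_union_left _ (mem_primesIn.2 hq)), htate⟩
  · exact CoreInstAdBar.hlocp_flat_wlog ρbar b p _ _ hdloc _ fun hflat q hq =>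
      CoreInstAdBar.localCond_of_eq ρbar b p _ _ _ _ q hq (hdloc q) (hFL b hflat)

/-- **frozen S56 from `KeyLeavesHyp p` and the two flat branch data** (helper55's
`s56_of_R1_R3FL` + `hlocp_flat_wlog` + helper44's `hlocp_flat_of_ends`). -/
theorem s56_of_keyLeaves_ends
    {𝒪 : Type} [CommRing 𝒪] [IsDomain 𝒪] [IsDiscreteValuationRing 𝒪]
    [IsAdicComplete (maximalIdeal 𝒪) 𝒪] [Finite (ResidueField 𝒪)]
    (p : ℕ) [Fact p.Prime] (hp2 : p ≠ 2) (hp𝒪 : (p : 𝒪) ∈ maximalIdeal 𝒪)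
    (ρbar : ResidualGaloisRep (ResidueField 𝒪))
    (habs : ρbar.IsAbsolutelyIrreducible)
    (hdet : (GaloisRepAdic.ofResidualGaloisRep ρbar).DetIsCyclotomic p)
    (hsplit : ∀ σ : AlgebraicClosure ℚ ≃ₐ[ℚ] AlgebraicClosure ℚ,
      ∃ α β : ResidueField 𝒪, LinearMap.charpoly (ρbar.ρ σ) = (X - C α) * (X - C β))
    (hTW : ∀ (K : Type) [Field K] [Algebra (ResidueField 𝒪) K]
      (G : Subgroup (AlgebraicClosure ℚ ≃ₐ[ℚ] AlgebraicClosure ℚ)), G.index = 2 →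
      ∀ V : Submodule K (ρbar.baseChange K).V,
        (∀ σ ∈ G, ∀ x ∈ V, (ρbar.baseChange K).ρ σ x ∈ V) → V = ⊥ ∨ V = ⊤)
    (S Smin : Finset ℕ) (hpSmin : p ∈ Smin) (hSmin : Smin ⊆ S) (hS : ∀ q ∈ S, q.Prime)
    (hmin : ∀ q : ℕ, q.Prime → q ≠ p → (q ∈ Smin ↔ ¬ ρbar.IsUnramifiedAt q))
    -- the open nodes
    (hKey : Fermat.Agent.GP.GW.Euler.BaseHypOfLeaves.KeyLeavesHyp p)
    (hSS : ∀ b : Module.Basis (Fin 2) (ResidueField 𝒪) ρbar.V,
      (GaloisRepAdic.ofResidualGaloisRep ρbar).IsFlatAt p →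
      SSShape ρbar p (padicPlace p) →
      ∃ (GK : Subgroup Fermat.Agent.S53_helper35.GQ)
        (H : AddSubgroup (Fermat.Agent.S53_helper35.GQ → Matrix (Fin 2) (Fin 2) (ResidueField 𝒪))),
        ((GK.relIndex ((padicPlace p).decompositionSubgroup ℚ) : ℕ) : ResidueField 𝒪) ≠ 0 ∧
        Finite H ∧ Nat.card H ≤ Nat.card (ResidueField 𝒪) ∧
        ∀ (t : Fermat.Agent.S53_helper35.GQ →* Matrix (Fin 2) (Fin 2) (DualNumber (ResidueField 𝒪)))
          (ht : MatCont t), rfst t = toMatRes ρbar b →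
          (ofMat t ht).DetIsCyclotomic p → (ofMat t ht).IsFlatAt p →
          suppOn GK (tanCocycle t) ∈ H)
    (hORD : ∀ b : Module.Basis (Fin 2) (ResidueField 𝒪) ρbar.V,
      (GaloisRepAdic.ofResidualGaloisRep ρbar).IsFlatAt p →
      OrdShape ρbar (padicPlace p) →
      ∃ (g : GL (Fin 2) (ResidueField 𝒪))
        (ZB' : Submodule (ResidueField 𝒪)
          ((DPq p → ResidueField 𝒪) × (DPq p → ResidueField 𝒪))),
        Finite ↥((ZB'.map (bval g)).map (quoMap (rDq p (toMatRes ρbar b)))) ∧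
        Nat.card ↥((ZB'.map (bval g)).map (quoMap (rDq p (toMatRes ρbar b)))) ≤
          Nat.card (inv0 (rDq p (toMatRes ρbar b))) * Nat.card (ResidueField 𝒪) ∧
        ∀ (t : Fermat.Agent.S53_helper35.GQ →* Matrix (Fin 2) (Fin 2) (DualNumber (ResidueField 𝒪)))
          (ht : MatCont t), rfst t = toMatRes ρbar b →
          (ofMat t ht).DetIsCyclotomic p → (ofMat t ht).IsFlatAt p →
          (∀ σ, Matrix.trace (tanCocycle t σ) = 0) →
          ∃ (X : Matrix (Fin 2) (Fin 2) (ResidueField 𝒪))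
            (x : (DPq p → ResidueField 𝒪) × (DPq p → ResidueField 𝒪)), X.trace = 0 ∧ x ∈ ZB' ∧
            ∀ σ : DPq p, tanCocycle t (σ : Fermat.Agent.S53_helper35.GQ) =
              bval g x σ + cob (rDq p (toMatRes ρbar b)) X σ) :
    (∃ r : ℕ, ∀ n : ℕ, ∃ qv : Fin r → ℕ, Function.Injective qv ∧
      (∀ i, (qv i).Prime ∧ qv i ∉ S ∧ p ^ (n + 1) ∣ qv i - 1) ∧
      (∀ i, ∀ P : ValuationSubring (AlgebraicClosure ℚ), P.LiesOverPrime (qv i) →
        ∀ φ : AlgebraicClosure ℚ ≃ₐ[ℚ] AlgebraicClosure ℚ, P.IsFrobeniusAt φ (qv i) →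
          ∃ α β : ResidueField 𝒪, α ≠ β ∧ LinearMap.charpoly (ρbar.ρ φ) = (X - C α) * (X - C β)) ∧
      ∀ DQ : GaloisRep.DeformationRingData 𝒪 ρbar (fun _A _ _ _ ρ =>
          GaloisRep.strictOrdinaryCondition 𝒪 p (Smin ∪ Finset.univ.image qv) ρ ∧
            ∀ q ∈ Smin, q.Prime → q ≠ p → ρ.IsUnipotentOnInertiaAt q),
        ∃ γ : MvPowerSeries (Fin r) 𝒪 →ₐ[𝒪] DQ.R, Function.Surjective γ) ∧
    (∃ r : ℕ, ∀ n : ℕ, ∃ qv : Fin r → ℕ, Function.Injective qv ∧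
      (∀ i, (qv i).Prime ∧ qv i ∉ S ∧ p ^ (n + 1) ∣ qv i - 1) ∧
      (∀ i, ∀ P : ValuationSubring (AlgebraicClosure ℚ), P.LiesOverPrime (qv i) →
        ∀ φ : AlgebraicClosure ℚ ≃ₐ[ℚ] AlgebraicClosure ℚ, P.IsFrobeniusAt φ (qv i) →
          ∃ α β : ResidueField 𝒪, α ≠ β ∧ LinearMap.charpoly (ρbar.ρ φ) = (X - C α) * (X - C β)) ∧
      ∀ DQ : GaloisRep.DeformationRingData 𝒪 ρbar (fun _A _ _ _ ρ =>
          GaloisRep.flatCondition 𝒪 p (Smin ∪ Finset.univ.image qv) ρ ∧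
            ∀ q ∈ Smin, q.Prime → q ≠ p → ρ.IsUnipotentOnInertiaAt q),
        ∃ γ : MvPowerSeries (Fin r) 𝒪 →ₐ[𝒪] DQ.R, Function.Surjective γ) := by
  letI := algebraResidueField p hp𝒪
  have hk : Nat.card (ResidueField 𝒪) = p ^ Module.finrank (ZMod p) (ResidueField 𝒪) :=
    natCard_eq_pow_finrank_zmod p (ResidueField 𝒪)
  have hpS₀ : ExtCitation.pPrime p ∈ primesIn Smin := mem_primesIn.2 hpSmin
  have hur : ∀ q : Nat.Primes, q ∉ primesIn Smin → ρbar.IsUnramifiedAt (q : ℕ) :=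
    Fermat.Agent.GP.Tan.SelmerAd0.unramified_outside_of_hmin p ρbar Smin hpSmin hmin
      (primesIn Smin) (fun q hq => mem_primesIn.2 hq)
  refine Generic.s56_of_R1_R3FL p hp2 hp𝒪 ρbar habs hdet hsplit hTW S Smin hpSmin hSmin hS hmin
    (fun b => ?_) (fun b hdloc => ?_)
  · obtain ⟨Sig, hSig, htate⟩ :=
      Fermat.Agent.GP.GW.Euler.BaseHypOfLeaves.exists_sigma_htate_adBar_of_keyLeaves ρbar b hp2
        (primesIn Smin) hpS₀ hur ∅ hKey
    exact ⟨Sig, fun q hq => hSig (Finset.mem_union_left _ (mem_primesIn.2 hq)), htate⟩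
  · exact CoreInstAdBar.hlocp_flat_wlog ρbar b p _ _ hdloc _ fun hflat =>
      Fermat.Agent.GP.Flat.FlatHlocp.hlocp_flat_of_ends ρbar b p (adBar p ρbar b)
        (emb p (toMatRes ρbar b) 1) hp2 hdet hflat hsplit (emb_injective p _ 1)
        (emb_surjective p _ 1) (emb_ρ_one p _) hdloc _ hk
        (fun h => by rw [← hk]; exact hSS b hflat h) (hORD b hflat)

end Fermat.Agent.GP.Core.S56OfLeaves
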